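import Fermat.Agent.Arith.Chebotarev.TwistedLog
import Mathlib.Data.FunLike.Fintype
import Mathlib.NumberTheory.DirichletCharacter.Orthogonality
import Mathlib.RingTheory.RootsOfUnity.AlgebraicallyClosed

/-!
# Separating residue classes in the degree one series of a number field

`hasLogPole_classCount`: characters trivial at `β` give the pole, the others are bounded above, and
below by the known pole of the class of `1`, so orthogonality gives the pole of the class of `β`.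
-/

set_option autoImplicit false

noncomputable section

open NumberField Filter Topology
open Fermat.Agent.Arith.Density
open scoped nonZeroDivisors

namespace Fermat.Agent.Arith.Chebotarev

/-- The degree one count restricted to the class `a` modulo `m`. -/
def classCount (K : Type*) [Field K] [NumberField K] (m : ℕ) (a : (ZMod m)ˣ) (n : ℕ) : ℝ :=
  if (n : ZMod m) = (a : ZMod m) then degOneCount K n else 0

/-- A logarithmic pole depends only on the coefficients beyond any bound. -/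
theorem _root_.Fermat.Agent.Arith.Density.HasLogPole.congr_eventually {c c' : ℕ → ℝ} {a : ℝ}
    (h : HasLogPole c a) (B : ℕ) (hB : ∀ n, B < n → c n = c' n) : HasLogPole c' a :=
  (h.add (HasLogPole.of_finite_support (c := fun n => c' n - c n) B
    fun n hn => by rw [hB n hn, sub_self])).congr (fun n => by ring) (add_zero a)

variable (K : Type*) [Field K] [NumberField K] {m : ℕ} [NeZero m]

theorem degOneCount_nonneg (n : ℕ) : 0 ≤ degOneCount K n := by
  rw [degOneCount]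
  split_ifs <;> positivity

/-- Orthogonality applied to the twisted degree one series. -/
theorem sum_degOneSum (a : (ZMod m)ˣ) {s : ℝ} (hs : s ∈ Set.Ioc (1 : ℝ) 2) :
    ∑ ψ : DirichletCharacter ℂ m, ψ ((a : ZMod m)⁻¹) * degOneSum K m ψ s =
      (((m.totient : ℝ) * ∑' n : ℕ, classCount K m a n * (n : ℝ) ^ (-s) : ℝ) : ℂ) := by
  simp only [degOneSum]
  rw [Finset.sum_congr rfl fun ψ _ => (tsum_mul_left (a := ψ ((a : ZMod m)⁻¹))).symm,
    ← Summable.tsum_finsetSum fun ψ _ => ((summable_degOneSum K m ψ hs).1.mul_left _),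
    Complex.ofReal_mul, Complex.ofReal_tsum, ← tsum_mul_left]
  refine tsum_congr fun n => ?_
  simp only [← mul_assoc, ← Finset.sum_mul,
    DirichletCharacter.sum_char_inv_mul_char_eq ℂ a.isUnit (n : ZMod m)]
  unfold classCount
  by_cases h : (a : ZMod m) = (n : ZMod m)
  · rw [if_pos h, if_pos h.symm]
    push_cast
    ring
  · rw [if_neg h, if_neg (Ne.symm h)]
    simp

/-- The number of characters trivial at `β`. -/
theorem orderOf_mul_card_trivial (β : (ZMod m)ˣ) :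
    orderOf β * (Finset.univ.filter fun ψ : DirichletCharacter ℂ m => ψ (β : ZMod m) = 1).card =
      m.totient := by
  have key : ∀ ψ : DirichletCharacter ℂ m,
      ∑ i ∈ Finset.range (orderOf β), ψ ((β : ZMod m) ^ i) =
        if ψ (β : ZMod m) = 1 then (orderOf β : ℂ) else 0 := by
    intro ψ
    simp only [map_pow]
    split_ifs with h
    · simp [h]
    · rw [geom_sum_eq h, ← map_pow, ← Units.val_pow_eq_pow_val, pow_orderOf_eq_one, Units.val_one,
        map_one, sub_self, zero_div]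
  have h1 := Finset.sum_congr rfl fun ψ (_ : ψ ∈ (Finset.univ : Finset (DirichletCharacter ℂ m))) =>
    key ψ
  rw [Finset.sum_comm, ← Finset.sum_filter, Finset.sum_const, nsmul_eq_mul] at h1
  simp only [DirichletCharacter.sum_characters_eq] at h1
  rw [Finset.sum_eq_single 0] at h1
  · rw [if_pos (pow_zero _)] at h1
    have h2 : ((m.totient : ℕ) : ℂ) =
        ((orderOf β * (Finset.univ.filter fun ψ : DirichletCharacter ℂ m =>
          ψ (β : ZMod m) = 1).card : ℕ) : ℂ) := by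
      rw [h1]; push_cast; ring
    exact (Nat.cast_injective h2).symm
  · intro i hi hi0
    rw [if_neg]
    intro h
    rw [← Units.val_pow_eq_pow_val, Units.val_eq_one] at h
    exact pow_ne_one_of_lt_orderOf hi0 (Finset.mem_range.mp hi) h
  · exact fun h => absurd (Finset.mem_range.mpr (orderOf_pos β)) h

omit [NeZero m] in
/-- If a character is `1` on almost all of the support, its twisted series has the pole of the
degree one series. -/
private theorem exists_norm_degOneSum_sub_log_le (ψ : DirichletCharacter ℂ m) {B : ℕ}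
    (hB : ∀ n, B < n → degOneCount K n ≠ 0 → ψ (n : ZMod m) = 1) :
    ∃ C : ℝ, ∀ᶠ s in 𝓝[>] (1 : ℝ),
      ‖degOneSum K m ψ s - ((-Real.log (s - 1) : ℝ) : ℂ)‖ ≤ C := by
  obtain ⟨Cz, hCz⟩ := hasLogPole_degOneCount K
  refine ⟨∑ n ∈ Finset.range (B + 1), 2 * degOneCount K n + Cz, ?_⟩
  filter_upwards [hCz, Ioc_mem_nhdsGT one_lt_two] with s ⟨hsum, hbd⟩ hs
  set Z := ∑' n : ℕ, degOneCount K n * (n : ℝ) ^ (-s) with hZ
  have hdiff : ‖degOneSum K m ψ s - (Z : ℂ)‖ ≤
      ∑ n ∈ Finset.range (B + 1), 2 * degOneCount K n := by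
    rw [degOneSum, hZ, Complex.ofReal_tsum,
      ← (summable_degOneSum K m ψ hs).1.tsum_sub (Complex.summable_ofReal.mpr hsum)]
    rw [tsum_eq_sum (s := Finset.range (B + 1)) fun n hn => by
      by_cases h0 : degOneCount K n = 0
      · simp [h0]
      · rw [hB n (by simpa using hn) h0, one_mul, sub_self]]
    refine (norm_sum_le _ _).trans (Finset.sum_le_sum fun n _ => ?_)
    rw [← sub_one_mul, norm_mul, Complex.norm_real, Real.norm_of_nonneg
      (mul_nonneg (degOneCount_nonneg K n) (Real.rpow_nonneg (Nat.cast_nonneg n) _))]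
    refine mul_le_mul ((norm_sub_le _ _).trans ?_) (mul_le_of_le_one_right
      (degOneCount_nonneg K n) ?_) (mul_nonneg (degOneCount_nonneg K n)
        (Real.rpow_nonneg (Nat.cast_nonneg n) _)) two_pos.le
    · rw [norm_one]
      linarith [DirichletCharacter.norm_le_one ψ (n : ZMod m)]
    · rcases Nat.eq_zero_or_pos n with hn | hn
      · simp [hn, Real.zero_rpow (by linarith [hs.1] : -s ≠ 0)]
      · exact Real.rpow_le_one_of_one_le_of_nonpos (by exact_mod_cast hn) (by linarith [hs.1])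
  calc ‖degOneSum K m ψ s - ((-Real.log (s - 1) : ℝ) : ℂ)‖
      ≤ ‖degOneSum K m ψ s - (Z : ℂ)‖ + ‖(Z : ℂ) - ((-Real.log (s - 1) : ℝ) : ℂ)‖ :=
        norm_sub_le_norm_sub_add_norm_sub _ _ _
    _ ≤ _ := add_le_add hdiff (by
        rw [← Complex.ofReal_sub, Complex.norm_real, Real.norm_eq_abs, sub_neg_eq_add]
        rwa [one_mul] at hbd)

/-- The series of a character nontrivial at `β` is bounded: each is bounded above, and by
orthogonality the pole of the class of `1` bounds it below. -/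
private theorem exists_norm_degOneSum_le (β : (ZMod m)ˣ)
    (hwit : ∀ ψ : DirichletCharacter ℂ m, ψ (β : ZMod m) ≠ 1 →
      ∃ P : (Ideal (𝓞 K))⁰, (Ideal.absNorm (P : Ideal (𝓞 K))).Coprime m ∧
        ψ (Ideal.absNorm (P : Ideal (𝓞 K)) : ZMod m) ≠ 1)
    (hone : HasLogPole (classCount K m 1) (orderOf β : ℝ)⁻¹)
    {CA : DirichletCharacter ℂ m → ℝ}
    (hA : ∀ᶠ s in 𝓝[>] (1 : ℝ), ∀ ψ : DirichletCharacter ℂ m, ψ (β : ZMod m) = 1 →
      ‖degOneSum K m ψ s - ((-Real.log (s - 1) : ℝ) : ℂ)‖ ≤ CA ψ)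
    {ψ₀ : DirichletCharacter ℂ m} (hψ₀ : ψ₀ (β : ZMod m) ≠ 1) :
    ∃ C : ℝ, ∀ᶠ s in 𝓝[>] (1 : ℝ), ‖degOneSum K m ψ₀ s‖ ≤ C := by
  -- `P1` are the characters trivial at `β`, each with pole `Lg`; the others are bounded above.
  set P1 := Finset.univ.filter fun ψ : DirichletCharacter ℂ m => ψ (β : ZMod m) = 1 with hP1
  set P2 := Finset.univ.filter fun ψ : DirichletCharacter ℂ m => ¬ψ (β : ZMod m) = 1
  have hφ : (0 : ℝ) < m.totient := by exact_mod_cast Nat.totient_pos.mpr (NeZero.pos m)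
  have hd : (0 : ℝ) < orderOf β := by exact_mod_cast orderOf_pos β
  have hN1 : (orderOf β : ℝ) * P1.card = m.totient := by exact_mod_cast orderOf_mul_card_trivial β
  obtain ⟨C1, hC1⟩ := hone
  have hA' : ∀ᶠ s in 𝓝[>] (1 : ℝ), ∀ ψ ∈ P1,
      ‖degOneSum K m ψ s - ((-Real.log (s - 1) : ℝ) : ℂ)‖ ≤ CA ψ :=
    hA.mono fun s h ψ hψ => h ψ (Finset.mem_filter.mp hψ).2
  have hB : ∀ ψ ∈ P2, ∃ C : ℝ, ∀ᶠ s in 𝓝[>] (1 : ℝ), (degOneSum K m ψ s).re ≤ C := fun ψ hψ => by
    obtain ⟨P, h1, h2⟩ := hwit ψ (Finset.mem_filter.mp hψ).2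
    exact exists_re_le K m ψ h1 h2
  choose! CB hCB using hB
  have hB' : ∀ᶠ s in 𝓝[>] (1 : ℝ), ∀ ψ ∈ P2, (degOneSum K m ψ s).re ≤ CB ψ :=
    (P2.eventually_all).mpr hCB
  obtain ⟨P, hP, hne⟩ := hwit ψ₀ hψ₀
  have hψ₀ : ψ₀ ∈ P2 := Finset.mem_filter.mpr ⟨Finset.mem_univ _, hψ₀⟩
  -- An upper bound for `ψ₀` being known, it suffices to bound it below.
  refine exists_norm_le K m ψ₀ hP hne ?_
  refine ⟨-(m.totient * C1 + ∑ ψ ∈ P1, CA ψ) - ∑ ψ ∈ P2.erase ψ₀, CB ψ, ?_⟩
  filter_upwards [hC1, hA', hB', Ioc_mem_nhdsGT one_lt_two] with s ⟨_, h1⟩ hAs hBs hs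
  -- By orthogonality the sum over all characters is `φ(m)` times the pole of the class of `1`,
  have horth := congrArg Complex.re (sum_degOneSum K (1 : (ZMod m)ˣ) hs)
  rw [Complex.re_sum, Complex.ofReal_re, ← Finset.sum_filter_add_sum_filter_not Finset.univ
    (fun ψ : DirichletCharacter ℂ m => ψ (β : ZMod m) = 1), ← hP1,
    ← Finset.add_sum_erase P2 _ hψ₀] at horth
  simp only [Units.val_one, ZMod.inv_one, map_one, one_mul] at horth
  set T := ∑' n : ℕ, classCount K m 1 n * (n : ℝ) ^ (-s)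
  set Lg := -Real.log (s - 1) with hLg
  have hT : -(m.totient * C1 : ℝ) ≤ m.totient * T - P1.card * Lg := by
    have h2 := (abs_le.mp h1).1
    have h3 : (m.totient : ℝ) * ((orderOf β : ℝ)⁻¹) = P1.card := by
      rw [← hN1]; field_simp
    have h5 := mul_le_mul_of_nonneg_left h2 hφ.le
    rw [mul_add, ← mul_assoc, h3] at h5
    rw [hLg]
    linarith
  -- which uses up the poles of `P1`, so the rest is bounded below.
  have hup : ∑ ψ ∈ P1, (degOneSum K m ψ s).re ≤ P1.card * Lg + ∑ ψ ∈ P1, CA ψ := by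
    rw [← nsmul_eq_mul, ← Finset.sum_const, ← Finset.sum_add_distrib]
    refine Finset.sum_le_sum fun ψ hψ => ?_
    have := (Complex.abs_re_le_norm _).trans (hAs ψ hψ)
    rw [Complex.sub_re, Complex.ofReal_re] at this
    linarith [(abs_le.mp this).2]
  have hup2 : ∑ ψ ∈ P2.erase ψ₀, (degOneSum K m ψ s).re ≤ ∑ ψ ∈ P2.erase ψ₀, CB ψ :=
    Finset.sum_le_sum fun ψ hψ => hBs ψ (Finset.mem_of_mem_erase hψ)
  linarith

/-- Orthogonality turns bounds on the twisted series into one on the class of `β`. -/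
private theorem abs_totient_mul_sub_le (β : (ZMod m)ˣ) {s : ℝ} (hs : s ∈ Set.Ioc (1 : ℝ) 2)
    {CA CC : DirichletCharacter ℂ m → ℝ}
    (hAs : ∀ ψ : DirichletCharacter ℂ m, ψ (β : ZMod m) = 1 →
      ‖degOneSum K m ψ s - ((-Real.log (s - 1) : ℝ) : ℂ)‖ ≤ CA ψ)
    (hCs : ∀ ψ : DirichletCharacter ℂ m, ψ (β : ZMod m) ≠ 1 → ‖degOneSum K m ψ s‖ ≤ CC ψ) :
    |(m.totient : ℝ) * ∑' n : ℕ, classCount K m β n * (n : ℝ) ^ (-s) -
        (Finset.univ.filter fun ψ : DirichletCharacter ℂ m => ψ (β : ZMod m) = 1).card *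
          -Real.log (s - 1)| ≤
      ∑ ψ with ψ (β : ZMod m) = 1, CA ψ + ∑ ψ with ¬ψ (β : ZMod m) = 1, CC ψ := by
  set P1 := Finset.univ.filter fun ψ : DirichletCharacter ℂ m => ψ (β : ZMod m) = 1 with hP1
  set Lg := -Real.log (s - 1) with hLg
  rw [← Real.norm_eq_abs, ← Complex.norm_real]
  have horth := sum_degOneSum K β hs
  rw [Complex.ofReal_sub, ← horth, ← Finset.sum_filter_add_sum_filter_not Finset.univ
    (fun ψ : DirichletCharacter ℂ m => ψ (β : ZMod m) = 1), ← hP1]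
  have hinv : ∀ ψ ∈ P1, ψ ((β : ZMod m)⁻¹) = 1 := fun ψ hψ => by
    have h1 : ψ (β : ZMod m) = 1 := (Finset.mem_filter.mp hψ).2
    have h2 := map_mul ψ (β : ZMod m)⁻¹ (β : ZMod m)
    rw [ZMod.inv_mul_of_unit _ β.isUnit, map_one, h1, mul_one] at h2
    exact h2.symm
  rw [Finset.sum_congr rfl fun ψ hψ => by rw [hinv ψ hψ, one_mul], add_sub_right_comm,
    show ((((P1.card : ℝ) * Lg : ℝ)) : ℂ) = ∑ _ψ ∈ P1, (Lg : ℂ) by simp,
    ← Finset.sum_sub_distrib]
  refine (norm_add_le _ _).trans (add_le_add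
    ((norm_sum_le _ _).trans (Finset.sum_le_sum fun ψ hψ => hAs ψ (Finset.mem_filter.mp hψ).2))
    ((norm_sum_le _ _).trans (Finset.sum_le_sum fun ψ hψ => ?_)))
  rw [norm_mul]
  exact (mul_le_of_le_one_left (norm_nonneg _) (DirichletCharacter.norm_le_one ψ _)).trans
    (hCs ψ (Finset.mem_filter.mp hψ).2)

/-- If the support of the degree one series lies in `⟨β⟩`, every character nontrivial at `β` is
nontrivial on some norm, and the class of `1` has the expected pole, then so does that of `β`. -/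
theorem hasLogPole_classCount (β : (ZMod m)ˣ)
    (hsupp : ∀ ψ : DirichletCharacter ℂ m, ψ (β : ZMod m) = 1 →
      ∃ B : ℕ, ∀ n, B < n → degOneCount K n ≠ 0 → ψ (n : ZMod m) = 1)
    (hwit : ∀ ψ : DirichletCharacter ℂ m, ψ (β : ZMod m) ≠ 1 →
      ∃ P : (Ideal (𝓞 K))⁰, (Ideal.absNorm (P : Ideal (𝓞 K))).Coprime m ∧
        ψ (Ideal.absNorm (P : Ideal (𝓞 K)) : ZMod m) ≠ 1)
    (hone : HasLogPole (classCount K m 1) (orderOf β : ℝ)⁻¹) :
    HasLogPole (classCount K m β) (orderOf β : ℝ)⁻¹ := by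
  set P1 := Finset.univ.filter fun ψ : DirichletCharacter ℂ m => ψ (β : ZMod m) = 1 with hP1
  set P2 := Finset.univ.filter fun ψ : DirichletCharacter ℂ m => ¬ψ (β : ZMod m) = 1
  have hφ : (0 : ℝ) < m.totient := by exact_mod_cast Nat.totient_pos.mpr (NeZero.pos m)
  have hN1 : (orderOf β : ℝ) * P1.card = m.totient := by exact_mod_cast orderOf_mul_card_trivial β
  have hd : (0 : ℝ) < orderOf β := by exact_mod_cast orderOf_pos β
  obtain ⟨Cz, hCz⟩ := hasLogPole_degOneCount K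
  -- characters trivial at `β`
  have hA : ∀ ψ : DirichletCharacter ℂ m, ψ (β : ZMod m) = 1 → ∃ C : ℝ, ∀ᶠ s in 𝓝[>] (1 : ℝ),
      ‖degOneSum K m ψ s - ((-Real.log (s - 1) : ℝ) : ℂ)‖ ≤ C := fun ψ hψ =>
    let ⟨_, hB⟩ := hsupp ψ hψ
    exists_norm_degOneSum_sub_log_le K ψ hB
  choose! CA hCA using hA
  have hA' : ∀ᶠ s in 𝓝[>] (1 : ℝ), ∀ ψ : DirichletCharacter ℂ m, ψ (β : ZMod m) = 1 →
      ‖degOneSum K m ψ s - ((-Real.log (s - 1) : ℝ) : ℂ)‖ ≤ CA ψ :=
    eventually_all.mpr fun ψ => eventually_imp_distrib_left.mpr (hCA ψ)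
  have hbd : ∀ ψ : DirichletCharacter ℂ m, ψ (β : ZMod m) ≠ 1 →
      ∃ C : ℝ, ∀ᶠ s in 𝓝[>] (1 : ℝ), ‖degOneSum K m ψ s‖ ≤ C :=
    fun ψ hψ => exists_norm_degOneSum_le K β hwit hone hA' hψ
  choose! CC hCC using hbd
  have hC' : ∀ᶠ s in 𝓝[>] (1 : ℝ), ∀ ψ : DirichletCharacter ℂ m, ψ (β : ZMod m) ≠ 1 →
      ‖degOneSum K m ψ s‖ ≤ CC ψ :=
    eventually_all.mpr fun ψ => eventually_imp_distrib_left.mpr (hCC ψ)
  refine ⟨(m.totient : ℝ)⁻¹ * (∑ ψ ∈ P1, CA ψ + ∑ ψ ∈ P2, CC ψ), ?_⟩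
  filter_upwards [hCz, hA', hC', Ioc_mem_nhdsGT one_lt_two] with s ⟨hsum, _⟩ hAs hCs hs
  refine ⟨Summable.of_nonneg_of_le (fun n => mul_nonneg ?_ (Real.rpow_nonneg (Nat.cast_nonneg n) _))
    (fun n => mul_le_mul_of_nonneg_right ?_ (Real.rpow_nonneg (Nat.cast_nonneg n) _)) hsum, ?_⟩
  · rw [classCount]; split_ifs
    exacts [degOneCount_nonneg K n, le_rfl]
  · rw [classCount]; split_ifs
    exacts [le_rfl, degOneCount_nonneg K n]
  set T := ∑' n : ℕ, classCount K m β n * (n : ℝ) ^ (-s)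
  set Lg := -Real.log (s - 1) with hLg
  have hkey := abs_totient_mul_sub_le K β hs hAs hCs
  have heq : T + (orderOf β : ℝ)⁻¹ * Real.log (s - 1) =
      (m.totient : ℝ)⁻¹ * ((m.totient : ℝ) * T - P1.card * Lg) := by
    have hP10 : (P1.card : ℝ) ≠ 0 := (mul_ne_zero_iff.mp (hN1.trans_ne hφ.ne')).2
    rw [hLg, ← hN1]
    field_simp
    ring
  rw [heq, abs_mul, abs_of_pos (inv_pos.mpr hφ)]
  exact mul_le_mul_of_nonneg_left hkey (inv_nonneg.mpr hφ.le)

end Fermat.Agent.Arith.Chebotarev
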