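import Fermat.Agent.Arith.Minkowski
import Fermat.Agent.Arith.Density.Frobenius
import Fermat.Agent.Arith.Chebotarev.Orth
import Fermat.Agent.Arith.RootsOfUnity

/-!
# Cyclotomic crossing

`hasLogPole_conjCount_cross`: in the compositum of `L` with the `m`-th roots of unity, `m` a good
prime, with Galois group `Gal(L/ℚ) × (ℤ/m)ˣ`, the field fixed by `(g, β)` turns the count of primes
with Frobenius `g` and residue `β` into its degree one series on a residue class (`Orth`).
-/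

set_option autoImplicit false

noncomputable section

namespace Fermat.Agent.Arith.Chebotarev

open Filter Subgroup NumberField
open Fermat.Agent.Arith Fermat.Agent.Arith.Density
open scoped nonZeroDivisors

variable (L : IntermediateField ℚ QBar) [FiniteDimensional ℚ L] [IsGalois ℚ L]

/-! ### Counting conjugations; cyclotomic characters -/

/-- The number of `x` conjugating the Frobenius at a prime `ℓ` to `g`. -/
def conjCount (g : Gal(L/ℚ)) (ℓ : ℕ) : ℝ :=
  if ℓ.Prime then (Nat.card {x : Gal(L/ℚ) // x⁻¹ * frobL L ℓ * x = g} : ℝ) else 0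

theorem hasLogPole_conjCount_one : HasLogPole (conjCount L 1) 1 :=
  (hasLogPole_card_mem L 1).congr
    (fun ℓ => by
      simp only [conjCount]
      refine if_congr Iff.rfl (congrArg Nat.cast ?_) rfl
      exact Nat.card_congr (Equiv.subtypeEquivRight fun x => by
        rw [zpowers_one_eq_bot, Subgroup.mem_bot])) (by simp)

instance numberField_of_finiteDimensional (K : IntermediateField ℚ QBar) [FiniteDimensional ℚ K] :
    NumberField K :=
  { to_finiteDimensional := inferInstance }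

omit [FiniteDimensional ℚ ↥L] in
/-- An automorphism restricts trivially to `L` exactly when it fixes `L` pointwise. -/
theorem restrictNormalHom_eq_one_iff {σ : GQ} :
    AlgEquiv.restrictNormalHom L σ = 1 ↔ ∀ x ∈ L, σ x = x :=
  MonoidHom.mem_ker.symm.trans ((SetLike.ext_iff.mp
    (@IntermediateField.restrictNormalHom_ker ℚ QBar _ _ _ L (IsGalois.to_normal (F := ℚ) (E := L)))
      σ).trans
      (IntermediateField.mem_fixingSubgroup_iff _ _))

/-- Inertia at a good prime restricts trivially to `L`. -/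
theorem inertia_fixes_of_good {m : ℕ} (hm : m.Prime) (hgood : Good L m) {A : ValuationSubring QBar}
    (hA : A.LiesOverPrime m) {σ : GQ} (hσ : σ ∈ A.inertiaSubgroupIn ℚ) :
    AlgEquiv.restrictNormalHom L σ = 1 := by
  rw [restrictNormalHom_eq_one_iff]
  intro x hx
  by_contra hne
  obtain ⟨y, hy⟩ := hgood A hA ((σ : QBar →ₐ[ℚ] QBar).comp L.val) L.val
    fun h => hne (AlgHom.congr_fun h ⟨x, hx⟩)
  exact hy ((mem_inertia_iff hA hm).mp hσ _ ((y.2 : IsIntegral ℤ (y : L)).map
    L.val.toRingHom.toIntAlgHom))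

/-- The cyclotomic character of a Frobenius at `q ∤ m` is `q`. -/
theorem autToPow_frobenius {m : ℕ} [NeZero m] {ζ : QBar} (hζ : IsPrimitiveRoot ζ m)
    {q : ℕ} {A : ValuationSubring QBar} (hA : A.LiesOverPrime q) (hq : q.Prime) {σ : GQ}
    (hσ : A.IsFrobeniusAt σ q) (hqm : ¬q ∣ m) :
    ((hζ.autToPow ℚ σ : (ZMod m)ˣ) : ZMod m) = q :=
  autToPow_eq hζ (frobenius_root hA hq hσ hζ.pow_eq_one hqm)

/-- The cyclotomic character of the Galois group of `ℚ` is surjective onto `(ℤ/m)ˣ`. -/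
theorem autToPow_surjective {m : ℕ} [NeZero m] {ζ : QBar} (hζ : IsPrimitiveRoot ζ m)
    (β : (ZMod m)ˣ) : ∃ σ : GQ, hζ.autToPow ℚ σ = β := by
  have hβ : IsPrimitiveRoot (ζ ^ (β : ZMod m).val) m :=
    hζ.pow_of_coprime _ (ZMod.val_coe_unit_coprime β)
  have hmin : minpoly ℚ ζ = minpoly ℚ (ζ ^ (β : ZMod m).val) := by
    rw [← Polynomial.cyclotomic_eq_minpoly_rat hζ (NeZero.pos m),
      Polynomial.cyclotomic_eq_minpoly_rat hβ (NeZero.pos m)]
  obtain ⟨σ, hσ⟩ := (Normal.minpoly_eq_iff_mem_orbit (h := inferInstance)).mp hmin.symm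
  refine ⟨σ, Units.ext ?_⟩
  have h1 := autToPow_eq hζ (show σ ζ = ζ ^ (β : ZMod m).val from hσ)
  rwa [ZMod.natCast_zmod_val] at h1

omit [FiniteDimensional ℚ ↥L] in
/-- An automorphism fixes `L(ζ)` exactly when it fixes `L` and has trivial cyclotomic character. -/
private theorem ker_restrictNormalHom_sup {m : ℕ} [NeZero m] (hm : m.Prime) {ζ : QBar}
    (hζ : IsPrimitiveRoot ζ m) (L' : IntermediateField ℚ QBar)
    (hL' : L' = L ⊔ IntermediateField.adjoin ℚ {ζ}) [IsGalois ℚ L'] :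
    (AlgEquiv.restrictNormalHom L' : GQ →* Gal(L'/ℚ)).ker =
      ((AlgEquiv.restrictNormalHom L).prod (hζ.autToPow ℚ)).ker := by
  ext σ
  rw [MonoidHom.mem_ker, restrictNormalHom_eq_one_iff, MonoidHom.mem_ker, MonoidHom.prod_apply,
    Prod.mk_eq_one, restrictNormalHom_eq_one_iff]
  subst hL'
  constructor
  · intro h
    refine ⟨fun x hx => h x ((le_sup_left : L ≤ L ⊔ IntermediateField.adjoin ℚ {ζ}) hx),
      Units.ext ?_⟩
    refine (autToPow_eq hζ (b := 1) ?_).trans (by simp)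
    rw [pow_one]
    exact h ζ ((le_sup_right : IntermediateField.adjoin ℚ {ζ} ≤ _)
      (IntermediateField.mem_adjoin_simple_self ℚ ζ))
  · rintro ⟨hL, hχ⟩
    have hσζ : σ ζ = ζ := by
      rw [← hζ.autToPow_spec ℚ σ, hχ, Units.val_one]
      have : Fact (1 < m) := ⟨hm.one_lt⟩
      rw [ZMod.val_one, pow_one]
    have hle : L ⊔ IntermediateField.adjoin ℚ {ζ} ≤
        IntermediateField.fixedField (zpowers σ) := by
      refine sup_le ?_ (IntermediateField.adjoin_le_iff.mpr ?_)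
      · rw [IntermediateField.le_iff_le, zpowers_le, IntermediateField.mem_fixingSubgroup_iff]
        exact hL
      · intro x hxζ
        rw [Set.mem_singleton_iff] at hxζ
        rw [hxζ]
        rintro ⟨τ, hτ⟩
        obtain ⟨i, rfl⟩ := mem_zpowers_iff.mp hτ
        exact MulAction.mem_stabilizer_iff.mp
          (Subgroup.zpow_mem (MulAction.stabilizer GQ ζ) hσζ i)
    intro x hx
    exact hle hx ⟨σ, mem_zpowers σ⟩

/-! ### The crossing field -/

/-- For a prime `m` good for `L`, automorphisms realise every pair of an element of `Gal(L/ℚ)` and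
a value of the cyclotomic character: the kernels generate, as no prime ramifies in both fields. -/
private theorem surjective_restrictNormalHom_prod {m : ℕ} [NeZero m] (hm : m.Prime)
    (hgood : Good L m) {ζ : QBar} (hζ : IsPrimitiveRoot ζ m) :
    Function.Surjective
      ((AlgEquiv.restrictNormalHom L : GQ →* Gal(L/ℚ)).prod (hζ.autToPow ℚ)) := by
  set rL : GQ →* Gal(L/ℚ) := AlgEquiv.restrictNormalHom L
  set χ : GQ →* (ZMod m)ˣ := hζ.autToPow ℚ
  have hsup : rL.ker ⊔ χ.ker = ⊤ := by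
    refine eq_top_of_inertia_le _ (Subgroup.isOpen_mono le_sup_left ?_) fun q hq A hA σ hσ => ?_
    · rw [show rL.ker = L.fixingSubgroup from
        @IntermediateField.restrictNormalHom_ker ℚ QBar _ _ _ L
          (IsGalois.to_normal (F := ℚ) (E := L))]
      exact IntermediateField.fixingSubgroup_isOpen L
    · by_cases hqm : q = m
      · subst hqm
        exact mem_sup_left (inertia_fixes_of_good L hm hgood hA hσ)
      · refine mem_sup_right (MonoidHom.mem_ker.mpr (Units.ext ?_))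
        refine (autToPow_eq hζ (b := 1) ?_).trans (by simp)
        rw [pow_one]
        exact inertia_root hA hq hσ hζ.pow_eq_one
          fun h => hqm ((Nat.prime_dvd_prime_iff_eq hq hm).mp h)
  rintro ⟨g, β⟩
  obtain ⟨σ₀, hσ₀⟩ := AlgEquiv.restrictNormalHom_surjective (K₁ := L) QBar g
  obtain ⟨τ₀, hτ₀⟩ := autToPow_surjective hζ β
  have hmem : σ₀⁻¹ * τ₀ ∈ ((rL.ker ⊔ χ.ker : Subgroup GQ) : Set GQ) := by
    rw [hsup]; exact Subgroup.mem_top _
  rw [Subgroup.normal_mul] at hmem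
  obtain ⟨a, ha, b, hb, hab⟩ := Set.mem_mul.mp hmem
  have ha' : rL a = 1 := ha
  have hb' : χ b = 1 := hb
  refine ⟨σ₀ * a, Prod.ext ?_ ?_⟩
  · show rL (σ₀ * a) = g
    rw [map_mul, ha', mul_one]
    exact hσ₀
  · show χ (σ₀ * a) = β
    rw [show σ₀ * a = τ₀ * b⁻¹ by
      rw [eq_mul_inv_iff_mul_eq, mul_assoc, hab, mul_inv_cancel_left], map_mul, map_inv, hb',
      inv_one, mul_one]
    exact hτ₀

/-- The compositum of `L` with a cyclotomic field of prime conductor unramified in `L`. -/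
theorem exists_crossing {m : ℕ} (hm : m.Prime) (hgood : Good L m) :
    ∃ (χ : GQ →* (ZMod m)ˣ) (L' : IntermediateField ℚ QBar) (_ : FiniteDimensional ℚ L')
      (_ : IsGalois ℚ L') (θ : Gal(L'/ℚ) ≃* Gal(L/ℚ) × (ZMod m)ˣ),
      (∀ σ : GQ, θ (AlgEquiv.restrictNormalHom L' σ) = (AlgEquiv.restrictNormalHom L σ, χ σ)) ∧
      (∀ (q : ℕ) (A : ValuationSubring QBar) (σ : GQ), q.Prime → q ≠ m → A.LiesOverPrime q →
        A.IsFrobeniusAt σ q → ((χ σ : (ZMod m)ˣ) : ZMod m) = q) := by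
  have : NeZero m := ⟨hm.ne_zero⟩
  obtain ⟨ζ, hζ⟩ := HasEnoughRootsOfUnity.exists_primitiveRoot QBar m
  set χ : GQ →* (ZMod m)ˣ := hζ.autToPow ℚ
  set K : IntermediateField ℚ QBar := IntermediateField.adjoin ℚ {ζ}
  have : FiniteDimensional ℚ K :=
    IntermediateField.adjoin.finiteDimensional (Algebra.IsIntegral.isIntegral ζ)
  have hKn : Normal ℚ K := by
    refine IntermediateField.normal_iff_forall_map_le'.mpr fun σ => ?_
    rw [IntermediateField.adjoin_map, IntermediateField.adjoin_le_iff]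
    rintro _ ⟨x, rfl, rfl⟩
    show σ x ∈ K
    rw [← hζ.autToPow_spec ℚ σ]
    exact pow_mem (IntermediateField.mem_adjoin_simple_self ℚ x) _
  set L' : IntermediateField ℚ QBar := L ⊔ K with hL'
  have : Normal ℚ L' := @IntermediateField.normal_sup ℚ QBar _ _ _ L K
    (IsGalois.to_normal (F := ℚ) (E := L)) hKn
  have : IsGalois ℚ L' := ⟨⟩
  set rL' : GQ →* Gal(L'/ℚ) := AlgEquiv.restrictNormalHom L'
  set ρ : GQ →* Gal(L/ℚ) × (ZMod m)ˣ := (AlgEquiv.restrictNormalHom L).prod χ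
  have hker : rL'.ker = ρ.ker := ker_restrictNormalHom_sup L hm hζ L' hL'
  have hρ : Function.Surjective ρ := surjective_restrictNormalHom_prod L hm hgood hζ
  have hs : Function.Surjective rL' := AlgEquiv.restrictNormalHom_surjective (K₁ := L') QBar
  refine ⟨χ, L', inferInstance, inferInstance,
    (QuotientGroup.quotientKerEquivOfSurjective rL' hs).symm.trans
      ((QuotientGroup.quotientMulEquivOfEq hker).trans
        (QuotientGroup.quotientKerEquivOfSurjective ρ hρ)), fun σ => ?_,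
    fun q A σ hq hqm hA hσ => autToPow_frobenius hζ hA hq hσ
      fun h => hqm ((Nat.prime_dvd_prime_iff_eq hq hm).mp h)⟩
  have hsymm : (QuotientGroup.quotientKerEquivOfSurjective rL' hs).symm (rL' σ) =
      QuotientGroup.mk σ :=
    (MulEquiv.symm_apply_eq _).mpr rfl
  rw [MulEquiv.trans_apply, MulEquiv.trans_apply, hsymm]
  rfl

/-- In a product with a commutative group, conjugation to a given pair only constrains the first
coordinate. -/
private theorem natCard_conj_prod {G' G H : Type*} [Group G'] [Group G] [CommGroup H]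
    (θ : G' ≃* G × H) {F : G'} {f : G} {h : H} (hF : θ F = (f, h)) (g : G) :
    Nat.card {x : G' // x⁻¹ * F * x = θ.symm (g, h)} =
      Nat.card {y : G // y⁻¹ * f * y = g} * Nat.card H := by
  rw [← Nat.card_prod]
  have key : ∀ x : G', θ (x⁻¹ * F * x) = ((θ x).1⁻¹ * f * (θ x).1, h) := fun x => by
    rw [map_mul, map_mul, map_inv, hF]
    exact Prod.ext rfl (by
      show (θ x).2⁻¹ * h * (θ x).2 = h
      rw [mul_comm _ (θ x).2, mul_inv_cancel_left])
  refine Nat.card_congr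
    { toFun := fun x => (⟨(θ x.1).1, ?_⟩, (θ x.1).2)
      invFun := fun p => ⟨θ.symm (p.1.1, p.2), ?_⟩
      left_inv := fun x => Subtype.ext (θ.symm_apply_apply x.1)
      right_inv := fun p => Prod.ext (Subtype.ext (by simp)) (by simp) }
  · have h4 := congrArg θ x.2
    rw [key, MulEquiv.apply_symm_apply] at h4
    exact congrArg Prod.fst h4
  · apply θ.injective
    rw [key, MulEquiv.apply_symm_apply, MulEquiv.apply_symm_apply]
    exact Prod.ext p.1.2 rfl

/-- A character nontrivial on the image of `z` is nontrivial on the norm of some ideal, of norm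
prime to `m`, of the fixed field of `z`. -/
private theorem exists_coprime_norm_ne_one {L' : IntermediateField ℚ QBar} [FiniteDimensional ℚ L']
    [IsGalois ℚ L'] {m : ℕ} (hm : m.Prime) (z : Gal(L'/ℚ))
    (η : Gal(L'/ℚ) →* (ZMod m)ˣ) (χ : GQ →* (ZMod m)ˣ)
    (hη : ∀ σ : GQ, η (AlgEquiv.restrictNormalHom L' σ) = χ σ)
    (hχ : ∀ (q : ℕ) (A : ValuationSubring QBar) (σ : GQ), q.Prime → q ≠ m → A.LiesOverPrime q →
      A.IsFrobeniusAt σ q → ((χ σ : (ZMod m)ˣ) : ZMod m) = q)
    {ψ : DirichletCharacter ℂ m} (hψ : ψ ((η z : (ZMod m)ˣ) : ZMod m) ≠ 1) :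
    ∃ P : (Ideal (𝓞 (fixedBy L' z)))⁰,
      (Ideal.absNorm (P : Ideal (𝓞 (fixedBy L' z)))).Coprime m ∧
        ψ (Ideal.absNorm (P : Ideal (𝓞 (fixedBy L' z))) : ZMod m) ≠ 1 := by
  set M := fixedBy L' z
  obtain ⟨G₀, hG₀⟩ := AlgEquiv.restrictNormalHom_surjective (K₁ := L') QBar z
  obtain ⟨ℓ, hℓ, hℓS, A, hA, σ, hσ, hz⟩ := exists_frobenius_zpowers_eq L' G₀ {m}
  have hne : ℓ ≠ m := fun h => hℓS (Finset.mem_singleton.mpr h)
  rw [hG₀] at hz
  have hfix : (σ : QBar →ₐ[ℚ] QBar).comp (L'.val.comp M.val) = L'.val.comp M.val := by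
    refine AlgHom.ext fun k => ?_
    have hk : AlgEquiv.restrictNormalHom L' σ (k : L') = (k : L') :=
      k.2 ⟨_, hz ▸ mem_zpowers _⟩
    have hk2 := congrArg Subtype.val hk
    rwa [show ((AlgEquiv.restrictNormalHom L' σ (k : L') : L') : QBar) = σ ((k : L') : QBar)
      from AlgEquiv.restrictNormal_commutes σ L' _] at hk2
  have hN := absNorm_comap_of_fixed hA hℓ hσ hfix
  refine ⟨⟨_, mem_nonZeroDivisors_iff_ne_zero.mpr
    (comap_intMap_ne_bot hA hℓ (L'.val.comp M.val))⟩, ?_, ?_⟩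
  · show Nat.Coprime (Ideal.absNorm ((centre A).comap (intMap M (L'.val.comp M.val)))) m
    exact hN.symm ▸ (Nat.coprime_primes hℓ hm).mpr hne
  · refine Eq.mpr (congrArg (fun t : ℕ => ψ (t : ZMod m) ≠ 1) hN) ?_
    rw [← hχ ℓ A σ hℓ hne hA hσ]
    intro h1
    refine hψ ?_
    have hmem : z ∈ zpowers (AlgEquiv.restrictNormalHom L' σ) := hz ▸ mem_zpowers z
    rw [← IsOfFinOrder.mem_powers_iff_mem_zpowers (isOfFinOrder_of_finite _),
      Submonoid.mem_powers_iff] at hmem
    obtain ⟨i, hi⟩ := hmem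
    have h3 := congrArg η hi
    rw [map_pow, hη] at h3
    rw [← h3, Units.val_pow_eq_pow_val, map_pow, h1, one_pow]

/-! ### Transfer of the counts -/

section Transfer

/- A field `L'` with Galois group `Gal(L/ℚ) × (ℤ/m)ˣ` compatibly with the cyclotomic character `χ`,
as produced by `exists_crossing`. -/
variable {L} {m : ℕ} [NeZero m] {L' : IntermediateField ℚ QBar} [FiniteDimensional ℚ L']
  [IsGalois ℚ L'] {θ : Gal(L'/ℚ) ≃* Gal(L/ℚ) × (ZMod m)ˣ} {χ : GQ →* (ZMod m)ˣ}
  (hθ : ∀ σ : GQ, θ (AlgEquiv.restrictNormalHom L' σ) = (AlgEquiv.restrictNormalHom L σ, χ σ))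
  (hχ : ∀ (q : ℕ) (A : ValuationSubring QBar) (σ : GQ), q.Prime → q ≠ m → A.LiesOverPrime q →
    A.IsFrobeniusAt σ q → ((χ σ : (ZMod m)ˣ) : ZMod m) = q)

include hθ hχ in
omit [FiniteDimensional ℚ ↥L] [FiniteDimensional ℚ ↥L'] [NeZero m] in
/-- The second coordinate of a conjugate of a Frobenius at `ℓ ≠ m` is `ℓ`. -/
private theorem snd_conj_frobL {ℓ : ℕ} (hℓ : ℓ.Prime) (hne : ℓ ≠ m) (x : Gal(L'/ℚ)) :
    (((θ (x⁻¹ * frobL L' ℓ * x)).2 : (ZMod m)ˣ) : ZMod m) = ℓ := by
  rw [map_mul, map_mul, map_inv, frobL, hθ]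
  show (((θ x).2⁻¹ * χ (frobAt ℓ) * (θ x).2 : (ZMod m)ˣ) : ZMod m) = ℓ
  rw [mul_comm _ (θ x).2, mul_inv_cancel_left]
  exact hχ ℓ _ _ hℓ hne (exists_liesOverPrime hℓ).choose_spec (frobAt_spec hℓ)

/-- `d` times the number of degree one primes over a good `ℓ` of the fixed field of `z`, of order
`d`, counts the conjugates of Frobenius in `⟨z⟩`. -/
private theorem mul_degOneCount_fixedBy (z : Gal(L'/ℚ)) {ℓ : ℕ} (hℓ : ℓ.Prime)
    (hgood : Good (fixedBy L' z) ℓ) :
    (orderOf z : ℝ) * degOneCount (fixedBy L' z) ℓ =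
      (Nat.card {x : Gal(L'/ℚ) // x⁻¹ * frobL L' ℓ * x ∈ zpowers z} : ℝ) := by
  rw [degOneCount, if_pos hℓ, ← card_fixed_embeddings (exists_liesOverPrime hℓ).choose_spec hℓ
    hgood (frobAt_spec hℓ), ← Nat.cast_mul, mul_card_fixed]

include hθ hχ in
omit [FiniteDimensional ℚ ↥L] [NeZero m] in
/-- When `z = (g, β)` has the order of `β`, residue `β ^ j` singles out the conjugates of
Frobenius equal to `z ^ j`. -/
private theorem mul_classCount_fixedBy {g : Gal(L/ℚ)} {β : (ZMod m)ˣ} {z : Gal(L'/ℚ)}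
    (hz : θ z = (g, β)) (hzd : orderOf z = orderOf β) (j : ℕ) {ℓ : ℕ}
    (hne : ℓ.Prime → ℓ ≠ m) (hgood : ℓ.Prime → Good (fixedBy L' z) ℓ) :
    (orderOf z : ℝ) * classCount (fixedBy L' z) m (β ^ j) ℓ = conjCount L' (z ^ j) ℓ := by
  rw [classCount, conjCount]
  by_cases hℓ : ℓ.Prime
  swap
  · rw [if_neg hℓ]; simp [degOneCount, hℓ]
  have hsnd : ∀ i x, z ^ i = x⁻¹ * frobL L' ℓ * x →
      ((β ^ i : (ZMod m)ˣ) : ZMod m) = ℓ := fun i x hi => by
    rw [← snd_conj_frobL hθ hχ hℓ (hne hℓ) x, ← hi, map_pow, hz, Prod.pow_mk]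
  rw [if_pos hℓ]
  by_cases hu : (ℓ : ZMod m) = ((β ^ j : (ZMod m)ˣ) : ZMod m)
  · rw [if_pos hu, mul_degOneCount_fixedBy z hℓ (hgood hℓ)]
    refine congrArg Nat.cast (Nat.card_congr (Equiv.subtypeEquivRight fun x => ?_))
    refine ⟨fun h => ?_, fun h => h ▸ npow_mem_zpowers z j⟩
    rw [← IsOfFinOrder.mem_powers_iff_mem_zpowers (isOfFinOrder_of_finite _),
      Submonoid.mem_powers_iff] at h
    obtain ⟨i, hi⟩ := h
    have h3 : β ^ i = β ^ j := Units.ext (by rw [hsnd i x hi, hu])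
    rw [← hi, pow_eq_pow_iff_modEq, hzd, ← pow_eq_pow_iff_modEq]
    exact h3
  · rw [if_neg hu, mul_zero]
    have : IsEmpty {x : Gal(L'/ℚ) // x⁻¹ * frobL L' ℓ * x = z ^ j} :=
      ⟨fun ⟨x, hx⟩ => hu (hsnd j x hx.symm).symm⟩
    simp

include hθ hχ in
omit [FiniteDimensional ℚ ↥L] [FiniteDimensional ℚ ↥L'] in
/-- Conjugation to `z = (g, β)` in `L'` is conjugation to `g` in `L` with `ℓ ≡ β` modulo `m`. -/
private theorem conjCount_crossing {g : Gal(L/ℚ)} {β : (ZMod m)ˣ} {z : Gal(L'/ℚ)}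
    (hz : θ z = (g, β)) {ℓ : ℕ} (hne : ℓ.Prime → ℓ ≠ m) :
    conjCount L' z ℓ =
      (m.totient : ℝ) * (if (ℓ : ZMod m) = (β : ZMod m) then conjCount L g ℓ else 0) := by
  rw [conjCount, conjCount]
  by_cases hℓ : ℓ.Prime
  swap
  · simp [hℓ]
  rw [if_pos hℓ, if_pos hℓ]
  by_cases hu : (ℓ : ZMod m) = (β : ZMod m)
  · rw [if_pos hu]
    have hF : θ (frobL L' ℓ) = (frobL L ℓ, β) := by
      refine Prod.ext (congrArg Prod.fst (hθ (frobAt ℓ)) :) (Units.ext ?_)
      show ((θ (frobL L' ℓ)).2 : ZMod m) = β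
      have h := snd_conj_frobL hθ hχ hℓ (hne hℓ) 1
      rw [inv_one, one_mul, mul_one] at h
      rw [h, hu]
    have hcard := natCard_conj_prod θ hF g
    rw [← (MulEquiv.eq_symm_apply θ).mpr hz, Nat.card_eq_fintype_card (α := (ZMod m)ˣ),
      ZMod.card_units_eq_totient] at hcard
    rw [hcard, Nat.cast_mul, mul_comm]
  · rw [if_neg hu, mul_zero]
    have : IsEmpty {x : Gal(L'/ℚ) // x⁻¹ * frobL L' ℓ * x = z} := ⟨fun ⟨x, hx⟩ => hu (by
      rw [← snd_conj_frobL hθ hχ hℓ (hne hℓ) x, hx, hz])⟩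
    simp

end Transfer

/-! ### The main theorem -/

/-- The crossing: primes with Frobenius conjugate to `g` and residue `β` modulo `m`, weighted by
`conjCount`, have logarithmic pole of weight `1 / φ(m)` when `g ^ orderOf β = 1`. -/
theorem hasLogPole_conjCount_cross (g : Gal(L/ℚ)) {m : ℕ} (hm : m.Prime) (hgood : Good L m)
    (β : (ZMod m)ˣ) (hgβ : g ^ orderOf β = 1) :
    HasLogPole (fun ℓ => if (ℓ : ZMod m) = (β : ZMod m) then conjCount L g ℓ else 0)
      (m.totient : ℝ)⁻¹ := by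
  have : NeZero m := ⟨hm.ne_zero⟩
  obtain ⟨χ, L', hfd, hgal, θ, hθ, hχ⟩ := exists_crossing L hm hgood
  set z : Gal(L'/ℚ) := θ.symm (g, β)
  have hz : θ z = (g, β) := θ.apply_symm_apply _
  set d := orderOf β
  have hzd : orderOf z = d := by
    rw [MulEquiv.orderOf_eq, Prod.orderOf]
    exact Nat.lcm_eq_right (orderOf_dvd_of_pow_eq_one hgβ)
  set M := fixedBy L' z
  obtain ⟨B, hB⟩ := exists_bound_good M
  have hd0 : (d : ℝ) ≠ 0 := Nat.cast_ne_zero.mpr (orderOf_pos β).ne'
  have hφ0 : (m.totient : ℝ) ≠ 0 := Nat.cast_ne_zero.mpr (Nat.totient_pos.mpr hm.pos).ne'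
  have hclass : ∀ j ℓ : ℕ, max B m < ℓ →
      (d : ℝ) * classCount M m (β ^ j) ℓ = conjCount L' (z ^ j) ℓ := fun j ℓ hℓB => hzd ▸
    mul_classCount_fixedBy hθ hχ hz hzd j (fun _ => by omega) fun h => hB ℓ h (by omega)
  -- the class of `1`
  have hone : HasLogPole (classCount M m 1) (d : ℝ)⁻¹ := by
    refine (((hasLogPole_conjCount_one L').smul (d : ℝ)⁻¹).congr_eventually (max B m)
      fun ℓ hℓ => ?_).congr (fun _ => rfl) (mul_one _)
    have h := hclass 0 ℓ hℓ
    rw [pow_zero, pow_zero] at h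
    rw [← h, inv_mul_cancel_left₀ hd0]
  -- hence the class of `β`, as characters trivial on `β` are trivial on norms from `M`
  have hpole : HasLogPole (classCount M m β) (d : ℝ)⁻¹ := by
    refine hasLogPole_classCount M β (fun ψ hψ => ⟨max B m, fun ℓ hℓB hne0 => ?_⟩)
      (fun ψ hψ => ?_) hone
    · have hℓ : ℓ.Prime := by
        by_contra h
        exact hne0 (by simp [degOneCount, h])
      have h1 := mul_degOneCount_fixedBy z hℓ (hB ℓ hℓ (by omega))
      obtain ⟨x, hx⟩ : Nonempty {x : Gal(L'/ℚ) // x⁻¹ * frobL L' ℓ * x ∈ zpowers z} := by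
        by_contra h
        rw [not_nonempty_iff] at h
        rw [Nat.card_of_isEmpty, Nat.cast_zero, hzd] at h1
        exact hne0 ((mul_eq_zero.mp h1).resolve_left hd0)
      rw [← IsOfFinOrder.mem_powers_iff_mem_zpowers (isOfFinOrder_of_finite _),
        Submonoid.mem_powers_iff] at hx
      obtain ⟨i, hi⟩ := hx
      rw [← snd_conj_frobL hθ hχ hℓ (by omega) x, ← hi, map_pow, hz, Prod.pow_mk,
        Units.val_pow_eq_pow_val, map_pow, hψ, one_pow]
    · refine exists_coprime_norm_ne_one hm z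
        ((MonoidHom.snd _ _).comp θ.toMonoidHom) χ (fun σ => congrArg Prod.snd (hθ σ)) hχ ?_
      show ψ ((θ z).2 : ZMod m) ≠ 1
      rwa [hz]
  -- translate back to `L`
  refine ((hpole.smul ((d : ℝ) / m.totient)).congr_eventually (max B m) fun ℓ hℓB => ?_).congr
    (fun _ => rfl) (by field_simp)
  have h := hclass 1 ℓ hℓB
  rw [pow_one, pow_one] at h
  rw [div_mul_eq_mul_div, h, conjCount_crossing hθ hχ hz fun _ => by omega,
    mul_div_cancel_left₀ _ hφ0]

end Fermat.Agent.Arith.Chebotarev
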