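import Mathlib.Algebra.Group.Pi.Units
import Mathlib.Tactic
import Fermat.Agent.ClassField.ClassZeta

/-!
# The signed norm on the mixed space and on an ideal modulo `m`

The sign of the norm is constant near points off the coordinate hyperplanes
(`nrm_neg_iff_of_near`), and `N a / N J` on an ideal `J` is periodic modulo `m J` (`relNorm_congr`).
-/

set_option autoImplicit false

noncomputable section

open NumberField NumberField.mixedEmbedding Module Set
open scoped Classical

namespace Fermat.Agent.Arith.Chebotarev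

variable (K : Type*) [Field K] [NumberField K]

/-- The signed norm on the mixed space. -/
def nrm (x : mixedSpace K) : ℝ := Algebra.norm ℝ x

variable {K}

/-- The norm on the mixed space restricts to the norm of an algebraic integer. -/
theorem nrm_mixedEmbedding (z : 𝓞 K) :
    nrm K (mixedEmbedding K (z : K)) = ((Algebra.norm ℤ z : ℤ) : ℝ) := by
  classical
  rw [nrm, Algebra.norm_eq_matrix_det (latticeBasis K), ← Rat.cast_intCast, Algebra.coe_norm_int,
    Algebra.norm_eq_matrix_det (integralBasis K), ← eq_ratCast (Rat.castHom ℝ), RingHom.map_det]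
  congr 1
  ext i j
  rw [RingHom.mapMatrix_apply, Matrix.map_apply, Algebra.leftMulMatrix_eq_repr_mul,
    Algebra.leftMulMatrix_eq_repr_mul, latticeBasis_apply, ← map_mul, latticeBasis_repr_apply]
  rfl

theorem continuous_nrm : Continuous (nrm K) := by
  classical
  have : nrm K = fun x => (Algebra.leftMulMatrix (latticeBasis K) x).det :=
    funext fun x => Algebra.norm_eq_matrix_det _ x
  rw [this]
  exact ((Algebra.leftMulMatrix
    (latticeBasis K)).toLinearMap.continuous_of_finiteDimensional).matrix_det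

omit [NumberField K] in
theorem isUnit_of_normAtPlace {x : mixedSpace K} (h : ∀ w, normAtPlace w x ≠ 0) : IsUnit x := by
  rw [Prod.isUnit_iff, Pi.isUnit_iff, Pi.isUnit_iff]
  refine ⟨fun w => ?_, fun w => ?_⟩
  · have := h w.1
    rw [normAtPlace_apply_of_isReal w.2] at this
    exact isUnit_iff_ne_zero.mpr fun h0 => this (by simp [h0])
  · have := h w.1
    rw [normAtPlace_apply_of_isComplex w.2] at this
    exact isUnit_iff_ne_zero.mpr fun h0 => this (by simp [h0])

/-- The sign of the norm is constant on a ball avoiding the coordinate hyperplanes. -/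
theorem nrm_neg_iff_of_near {x y : mixedSpace K} {r : ℝ} (hy : ‖y - x‖ ≤ r)
    (hx : ∀ w, r < normAtPlace w x) : nrm K y < 0 ↔ nrm K x < 0 := by
  have hball : ∀ z ∈ Metric.closedBall x r, nrm K z ≠ 0 := by
    intro z hz
    rw [mem_closedBall_iff_norm] at hz
    refine ((isUnit_of_normAtPlace fun w h => ?_).map (Algebra.norm ℝ)).ne_zero
    obtain hw | hw := InfinitePlace.isReal_or_isComplex w
    · rw [normAtPlace_apply_of_isReal hw] at h
      have h1 := hx w
      rw [normAtPlace_apply_of_isReal hw] at h1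
      have h2 : ‖(z - x).1 ⟨w, hw⟩‖ ≤ r := (norm_le_pi_norm _ _).trans ((norm_fst_le _).trans hz)
      rw [norm_eq_zero] at h
      rw [Prod.fst_sub, Pi.sub_apply, h, zero_sub, norm_neg] at h2
      linarith
    · rw [normAtPlace_apply_of_isComplex hw] at h
      have h1 := hx w
      rw [normAtPlace_apply_of_isComplex hw] at h1
      have h2 : ‖(z - x).2 ⟨w, hw⟩‖ ≤ r := (norm_le_pi_norm _ _).trans ((norm_snd_le _).trans hz)
      rw [norm_eq_zero] at h
      rw [Prod.snd_sub, Pi.sub_apply, h, zero_sub, norm_neg] at h2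
      linarith
  have hr : 0 ≤ r := (norm_nonneg _).trans hy
  have hyb : y ∈ Metric.closedBall x r := mem_closedBall_iff_norm.mpr hy
  have hxb : x ∈ Metric.closedBall x r := Metric.mem_closedBall_self hr
  have key : ∀ a ∈ Metric.closedBall x r, ∀ b ∈ Metric.closedBall x r,
      nrm K a < 0 → nrm K b < 0 := by
    intro a ha b hb hneg
    by_contra hb'
    obtain ⟨z, hz, hz0⟩ := (convex_closedBall x r).isPreconnected.intermediate_value ha hb
      continuous_nrm.continuousOn ⟨hneg.le, not_lt.mp hb'⟩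
    exact hball z hz hz0
  exact ⟨key y hyb x hxb, key x hxb y hyb⟩

variable {J : Ideal (𝓞 K)}

/-- The norm of an ideal divides the norm of each of its elements. -/
theorem absNorm_dvd_norm {a : 𝓞 K} (ha : a ∈ J) :
    (Ideal.absNorm J : ℤ) ∣ Algebra.norm ℤ a := by
  rw [Int.natCast_dvd, ← Ideal.absNorm_span_singleton]
  exact Ideal.absNorm_dvd_absNorm_of_le ((Ideal.span_singleton_le_iff_mem J).mpr ha)

/-- The normalised norm `N(a)/N(J)` on `J`. -/
def relNorm (J : Ideal (𝓞 K)) (a : 𝓞 K) : ℤ := Algebra.norm ℤ a / (Ideal.absNorm J : ℤ)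

/-- Multiplication by an element of `J`, as a map `𝓞 K → J`. -/
def mulTo (x : J) : 𝓞 K →ₗ[ℤ] J where
  toFun y := ⟨y * x, J.mul_mem_left y x.2⟩
  map_add' y z := Subtype.ext (add_mul y z (x : 𝓞 K))
  map_smul' n y := Subtype.ext (by simp [mul_assoc])

/-- The normalised norm on `J` is periodic modulo `m J`. -/
theorem relNorm_congr (hJ : J ≠ ⊥) (m : ℕ) {a v : 𝓞 K} (ha : a ∈ J) (hv : v ∈ J) :
    ((relNorm J (a + (m : 𝓞 K) * v) : ℤ) : ZMod m) = (relNorm J a : ZMod m) := by
  classical
  let b := RingOfIntegers.basis K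
  let bJ := J.selfBasis b hJ
  let A : J → Matrix _ _ ℤ := fun x => LinearMap.toMatrix b bJ (mulTo x)
  set d := b.det ((↑) ∘ bJ) with hd
  have key : ∀ x : J, Algebra.norm ℤ (x : 𝓞 K) = d * (A x).det := by
    intro x
    rw [Algebra.norm_apply, ← LinearMap.det_toMatrix b, hd, Basis.det_apply, ← Matrix.det_mul]
    congr 1
    have hcomp : Algebra.lmul ℤ (𝓞 K) (x : 𝓞 K) =
        ((Submodule.subtype J).restrictScalars ℤ) ∘ₗ mulTo x :=
      LinearMap.ext fun y => by simp [mulTo, mul_comm]
    rw [hcomp, LinearMap.toMatrix_comp b bJ b]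
    congr 1
    ext i j
    simp [LinearMap.toMatrix_apply, Basis.toMatrix_apply]
  have hdabs : d.natAbs = Ideal.absNorm J := Ideal.natAbs_det_basis_change b J bJ
  have hN : (Ideal.absNorm J : ℤ) ≠ 0 := by
    exact_mod_cast fun h => hJ (Ideal.absNorm_eq_zero_iff.mp h)
  have hrel : ∀ x : J, relNorm J (x : 𝓞 K) = Int.sign d * (A x).det := by
    intro x
    refine Int.ediv_eq_of_eq_mul_left hN ?_
    rw [key, ← hdabs, mul_right_comm, Int.sign_mul_natAbs]
  have hmem : a + (m : 𝓞 K) * v ∈ J := J.add_mem ha (J.mul_mem_left _ hv)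
  rw [hrel ⟨_, hmem⟩, hrel ⟨a, ha⟩, Int.cast_mul, Int.cast_mul]
  congr 1
  show (Int.castRingHom (ZMod m)) _ = (Int.castRingHom (ZMod m)) _
  rw [RingHom.map_det, RingHom.map_det]
  congr 1
  ext i j
  simp only [RingHom.mapMatrix_apply, Matrix.map_apply, A, LinearMap.toMatrix_apply]
  have hsplit : mulTo ⟨a + (m : 𝓞 K) * v, hmem⟩ (b j) =
      mulTo ⟨a, ha⟩ (b j) + (m : ℤ) • mulTo ⟨v, hv⟩ (b j) :=
    Subtype.ext (by simp [mulTo, mul_add, mul_left_comm])
  rw [hsplit, map_add, map_zsmul, Finsupp.add_apply, Finsupp.smul_apply, smul_eq_mul]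
  simp

end Fermat.Agent.Arith.Chebotarev
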