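import Fermat.Agent.Arith.Chebotarev.LatticeSum
import Fermat.Agent.Arith.Chebotarev.Norm
import Mathlib.NumberTheory.DirichletCharacter.Bounds
import Mathlib.Topology.UniformSpace.Uniformizable

/-!
# Twisted zeta functions `∑ ψ(NI) NI^{-s}` have a limit at `1⁺`

By class, each is a lattice sum (`hasSum_class`), whose pole is a mean value of `ψ` times a signed
integral (`exists_tendsto_twist`); the means vanish in total when some `ψ(NP) ≠ 1` (`meanVal_mul`,
`exists_tendsto_idealTerm`).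
-/

set_option autoImplicit false

noncomputable section

open NumberField NumberField.InfinitePlace NumberField.mixedEmbedding
  NumberField.mixedEmbedding.fundamentalCone Module MeasureTheory Filter Topology
open Fermat.Agent.ClassField
open scoped nonZeroDivisors Classical

namespace Fermat.Agent.Arith.Chebotarev

variable {K : Type*} [Field K] [NumberField K]

/-! ### The signed far term and its integral -/

/-- The signed summand away from the origin. -/
def sFar (ε s : ℝ) (x : mixedSpace K) : ℝ := (if nrm K x < 0 then ε else 1) * farTerm K s x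

/-- The signed integral. -/
def sInt (K : Type*) [Field K] [NumberField K] (ε s : ℝ) : ℝ := ∫ x, sFar (K := K) ε s x

omit [NumberField K] in
theorem abs_sign_le {ε : ℝ} (hε : |ε| ≤ 1) (x : mixedSpace K) :
    |if nrm K x < 0 then ε else 1| ≤ 1 := by
  split_ifs
  · exact hε
  · exact (abs_one).le

theorem abs_sFar_le {ε : ℝ} (hε : |ε| ≤ 1) (s : ℝ) (x : mixedSpace K) :
    |sFar ε s x| ≤ farTerm K s x := by
  rw [sFar, abs_mul, abs_of_nonneg (farTerm_nonneg s x)]
  exact mul_le_of_le_one_left (farTerm_nonneg s x) (abs_sign_le hε x)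

theorem exists_farTerm_bound (K : Type*) [Field K] [NumberField K] :
    ∃ M : ℝ, ∀ s ∈ Set.Icc (1 : ℝ) 2, ∀ x : mixedSpace K, farTerm K s x ≤ M := by
  obtain ⟨M, hM, hMle⟩ := exists_farTerm_le K
  refine ⟨M, fun s hs z ↦ (hMle z s hs).trans (mul_le_of_le_one_right hM
    (Real.rpow_le_one_of_one_le_of_nonpos (le_add_of_nonneg_right (norm_nonneg z))
      (neg_nonpos.mpr (mul_nonneg (Nat.cast_nonneg _) (zero_le_one.trans hs.1)))))⟩

theorem exists_sFar_osc {ε : ℝ} (hε : |ε| ≤ 1) (r : ℝ) (hr : 0 < r) :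
    ∃ C : ℝ, ∀ s ∈ Set.Icc (1 : ℝ) 2, ∀ x y : mixedSpace K, ‖y - x‖ ≤ r →
      |sFar ε s y - sFar ε s x| ≤ C * decay x := by
  obtain ⟨κ, hκ, hκ1, hsupp⟩ := exists_support_bound K
  obtain ⟨C, hC⟩ := exists_farTerm_osc K r hr
  obtain ⟨M, hM⟩ := exists_farTerm_bound K
  set n : ℝ := (finrank ℝ (mixedSpace K) : ℝ)
  set R : ℝ := (r + 1) / κ + r + 1 with hR
  refine ⟨|C| + 2 * |M| * (1 + R) ^ (n + 1), fun s hs x y hy ↦ ?_⟩
  have hd : 0 ≤ decay x := decay_nonneg x
  by_cases hx : ‖x‖ ≤ R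
  -- On a bounded region `decay` is bounded below, so boundedness suffices.
  · refine le_trans ?_ (mul_le_mul_of_nonneg_right (le_add_of_nonneg_left (abs_nonneg C)) hd)
    refine (abs_sub _ _).trans (le_trans (add_le_add ((abs_sFar_le hε s y).trans (hM s hs y))
      ((abs_sFar_le hε s x).trans (hM s hs x))) ?_)
    have h1 : (1 : ℝ) ≤ (1 + R) ^ (n + 1) * decay x := by
      rw [decay, Real.rpow_neg (by positivity), ← div_eq_mul_inv, one_le_div (by positivity)]
      exact Real.rpow_le_rpow (by positivity) (by linarith) (by positivity)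
    calc M + M ≤ 2 * |M| * 1 := by linarith [le_abs_self M]
      _ ≤ 2 * |M| * ((1 + R) ^ (n + 1) * decay x) := mul_le_mul_of_nonneg_left h1 (by positivity)
      _ = _ := by ring
  · push Not at hx
    -- Further out the sign of the norm is constant near `x`, or both terms vanish.
    have hcase : (nrm K y < 0 ↔ nrm K x < 0) ∨
        (farTerm K s x = 0 ∧ farTerm K s y = 0) := by
      by_cases hwx : weight K x = 0
      · by_cases hwy : weight K y = 0
        · exact Or.inr ⟨by simp [farTerm, term, hwx], by simp [farTerm, term, hwy]⟩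
        · refine Or.inl (nrm_neg_iff_of_near (x := y) (y := x) (r := r)
            (by rwa [norm_sub_rev]) fun w ↦ ?_).symm
          have h1 := hsupp y hwy w
          have h2 : (r + 1) / κ < ‖y‖ := by
            have := norm_sub_norm_le x y
            rw [norm_sub_rev] at this
            linarith
          rw [div_lt_iff₀ hκ, mul_comm] at h2
          linarith
      · refine Or.inl (nrm_neg_iff_of_near hy fun w ↦ ?_)
        have h1 := hsupp x hwx w
        have h2 : (r + 1) / κ < ‖x‖ := by linarith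
        rw [div_lt_iff₀ hκ, mul_comm] at h2
        linarith
    refine le_trans ?_ (mul_le_mul_of_nonneg_right (le_add_of_nonneg_right (by positivity)) hd)
    rcases hcase with h | ⟨h1, h2⟩
    · rw [sFar, sFar, if_congr h rfl rfl, ← mul_sub, abs_mul]
      exact (mul_le_of_le_one_left (abs_nonneg _) (abs_sign_le hε x)).trans
        ((hC s hs x y hy).trans (mul_le_mul_of_nonneg_right (le_abs_self C) hd))
    · rw [sFar, sFar, h1, h2, mul_zero, mul_zero, sub_self, abs_zero]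
      positivity

theorem measurable_sFar (ε s : ℝ) : Measurable (sFar (K := K) ε s) :=
  (Measurable.ite (measurableSet_lt continuous_nrm.measurable measurable_const)
    measurable_const measurable_const).mul (measurable_farTerm s)

theorem integrable_sFar {ε : ℝ} (hε : |ε| ≤ 1) {s : ℝ} (hs : s ∈ Set.Ioc (1 : ℝ) 2) :
    Integrable (sFar (K := K) ε s) volume :=
  (integrable_farTerm hs).mono' (measurable_sFar ε s).aestronglyMeasurable
    (Eventually.of_forall fun x ↦ abs_sFar_le hε s x)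

theorem continuousWithinAt_term (x : mixedSpace K) :
    ContinuousWithinAt (fun s ↦ term K s x) (Set.Icc 1 2) 1 := by
  by_cases hN : mixedEmbedding.norm x = 0
  · have : ∀ s, term K s x = 0 := fun s ↦ by simp [term, weight, hN]
    simp only [this]
    exact continuousWithinAt_const
  · refine ((Real.continuousAt_const_rpow hN).comp continuousAt_neg).const_mul _
      |>.continuousWithinAt

theorem continuousWithinAt_sFar (ε : ℝ) (x : mixedSpace K) :
    ContinuousWithinAt (fun s ↦ sFar ε s x) (Set.Icc 1 2) 1 := by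
  by_cases h : 1 ≤ ‖x‖
  · simp only [sFar, farTerm, if_pos h]
    exact (continuousWithinAt_term x).const_mul _
  · simp only [sFar, farTerm, if_neg h, mul_zero]
    exact continuousWithinAt_const

/-- The signed weighted sum over a coset of the lattice of `J' ⊆ J`. -/
theorem exists_tendsto_coset {ε : ℝ} (hε : |ε| ≤ 1) (J J' : (Ideal (𝓞 K))⁰)
    (hle : (J' : Ideal (𝓞 K)) ≤ J) {α : 𝓞 K} (hα : α ∈ (J : Ideal (𝓞 K))) :
    (∀ s ∈ Set.Ioc (1 : ℝ) 2, Summable fun z : lat J' ↦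
      (if nrm K (mixedEmbedding K (α : K) + z) < 0 then ε else 1) *
        term K s (mixedEmbedding K (α : K) + z)) ∧
    ∃ c : ℝ, Tendsto (fun s ↦ ZLattice.covolume (lat J') volume * (∑' z : lat J',
        (if nrm K (mixedEmbedding K (α : K) + z) < 0 then ε else 1) *
          term K s (mixedEmbedding K (α : K) + z)) - sInt K ε s) (𝓝[>] 1) (𝓝 c) := by
  set a := mixedEmbedding K (α : K) with ha
  have hmem : ∀ z : lat J', a + (z : mixedSpace K) ∈ lat J := fun z ↦
    (lat J).add_mem ((mem_lat J).mpr ⟨α, hα, rfl⟩) (by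
      obtain ⟨b, hb, hbz⟩ := (mem_lat J').mp z.2
      exact (mem_lat J).mpr ⟨b, hle hb, hbz⟩)
  let ι : lat J' → lat J := fun z ↦ ⟨a + z, hmem z⟩
  have hι : Function.Injective ι := fun z w h ↦
    Subtype.ext (add_left_cancel (congrArg Subtype.val h :))
  have hbound : ∀ (s : ℝ) (x : mixedSpace K),
      ‖(if nrm K x < 0 then ε else 1) * term K s x‖ ≤ term K s x := fun s x ↦ by
    rw [norm_mul, Real.norm_eq_abs, Real.norm_of_nonneg (term_nonneg s x)]
    exact mul_le_of_le_one_left (term_nonneg s x) (abs_sign_le hε x)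
  have hsum : ∀ s ∈ Set.Ioc (1 : ℝ) 2, Summable fun z : lat J' ↦
      (if nrm K (a + z) < 0 then ε else 1) * term K s (a + z) := fun s hs ↦
    Summable.of_norm_bounded ((summable_term J hs).comp_injective hι) fun z ↦ hbound s _
  refine ⟨hsum, ?_⟩
  have hsumfar : ∀ s ∈ Set.Ioc (1 : ℝ) 2,
    Summable fun z : lat J' ↦ sFar ε s (a + (z : mixedSpace K)) := fun s hs ↦
    Summable.of_norm_bounded ((summable_farTerm J hs).comp_injective hι) fun z ↦
      abs_sFar_le hε s _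
  obtain ⟨r, hr, hlim⟩ := exists_tendsto_tsum_sub_integral (lat J') volume
  obtain ⟨C, hC⟩ := exists_sFar_osc (K := K) hε r hr
  obtain ⟨M, hM⟩ := exists_farTerm_bound K
  obtain ⟨c, hc⟩ := hlim a C M (sFar ε) (fun s hs ↦ integrable_sFar hε hs) hsumfar
    (fun s _ ↦ measurable_sFar ε s)
    (fun s hs x ↦ (abs_sFar_le hε s x).trans (hM s hs x))
    (continuousWithinAt_sFar ε) hC
  -- the finitely many terms near the origin
  have hfin : {z : lat J' | ¬ 1 ≤ ‖a + (z : mixedSpace K)‖}.Finite :=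
    (finite_small J).preimage hι.injOn
  set S := hfin.toFinset
  set g : lat J' → ℝ → ℝ := fun z s ↦
    (if nrm K (a + (z : mixedSpace K)) < 0 then ε else 1) * term K s (a + (z : mixedSpace K)) -
      sFar ε s (a + (z : mixedSpace K))
  have hg : ∀ z : lat J', Tendsto (g z) (𝓝[>] 1) (𝓝 (g z 1)) := fun z ↦ by
    have hsub : 𝓝[>] (1 : ℝ) ≤ 𝓝[Set.Icc 1 2] 1 :=
      nhdsWithin_le_iff.mpr (mem_of_superset (Ioc_mem_nhdsGT one_lt_two) Set.Ioc_subset_Icc_self)
    exact ((((continuousWithinAt_term _).tendsto.mono_left hsub).const_mul _).sub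
      ((continuousWithinAt_sFar ε _).tendsto.mono_left hsub))
  refine ⟨c + ZLattice.covolume (lat J') volume * ∑ z ∈ S, g z 1, ?_⟩
  refine (hc.add ((tendsto_finsetSum S fun z _ ↦ hg z).const_mul _)).congr' ?_
  filter_upwards [Ioc_mem_nhdsGT one_lt_two] with s hs
  rw [← tsum_eq_sum (L := SummationFilter.unconditional _) (s := S) (f := fun z : lat J' ↦ g z s)
      fun z hz ↦ by
    simp only [S, Set.Finite.mem_toFinset, Set.mem_ofPred_eq, not_not] at hz
    simp only [g, sFar, farTerm, if_pos hz, sub_self]]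
  simp only [g]
  rw [Summable.tsum_sub (hsum s hs) (hsumfar s hs)]
  show _ = _ - sInt K ε s
  rw [sInt]
  ring

/-! ### Lattice coordinates modulo `m` and mean values -/

/-- A `ℤ`-basis of `J`. -/
def idealZBasis (J : (Ideal (𝓞 K))⁰) :
    Basis (Free.ChooseBasisIndex ℤ (𝓞 K)) ℤ (J : Ideal (𝓞 K)) :=
  (J : Ideal (𝓞 K)).selfBasis (RingOfIntegers.basis K) (nonZeroDivisors.coe_ne_zero J)

variable (m : ℕ) [NeZero m]

/-- Representatives of `J / m J`. -/
def rep (J : (Ideal (𝓞 K))⁰) (q : Free.ChooseBasisIndex ℤ (𝓞 K) → ZMod m) : (J : Ideal (𝓞 K)) :=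
  (idealZBasis J).equivFun.symm fun i ↦ ((q i).val : ℤ)

/-- Coordinates modulo `m`. -/
def coord (J : (Ideal (𝓞 K))⁰) (x : (J : Ideal (𝓞 K))) :
    Free.ChooseBasisIndex ℤ (𝓞 K) → ZMod m :=
  fun i ↦ ((idealZBasis J).equivFun x i : ZMod m)

theorem exists_eq_rep_add (J : (Ideal (𝓞 K))⁰) (x : (J : Ideal (𝓞 K))) :
    ∃ v : (J : Ideal (𝓞 K)), x = rep m J (coord m J x) + (m : ℤ) • v := by
  refine ⟨(idealZBasis J).equivFun.symm fun i ↦ (idealZBasis J).equivFun x i / (m : ℤ), ?_⟩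
  apply (idealZBasis J).equivFun.injective
  funext i
  rw [map_add, map_zsmul, rep, LinearEquiv.apply_symm_apply, LinearEquiv.apply_symm_apply,
    Pi.add_apply, Pi.smul_apply, coord, ZMod.val_intCast, smul_eq_mul, Int.emod_add_mul_ediv]

/-- `J = ⊔ (rep q + m J)`. -/
def splitEquiv (J : (Ideal (𝓞 K))⁰) :
    (Free.ChooseBasisIndex ℤ (𝓞 K) → ZMod m) × (J : Ideal (𝓞 K)) ≃ (J : Ideal (𝓞 K)) :=
  Equiv.ofBijective (fun p ↦ rep m J p.1 + (m : ℤ) • p.2) ⟨fun p p' h ↦ by
    have hq : p.1 = p'.1 := by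
      funext i
      have h1 := congrArg (fun x ↦ (((idealZBasis J).equivFun x i : ℤ) : ZMod m)) h
      simp only [map_add, map_zsmul, rep, LinearEquiv.apply_symm_apply, Pi.add_apply,
        Pi.smul_apply] at h1
      simpa using h1
    refine Prod.ext hq ?_
    simp only [hq, add_right_inj] at h
    exact smul_right_injective _ (Int.natCast_ne_zero.mpr (NeZero.ne m)) h,
    fun x ↦ by
      obtain ⟨v, hv⟩ := exists_eq_rep_add m J x
      exact ⟨(coord m J x, v), hv.symm⟩⟩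

variable (ψ : DirichletCharacter ℂ m)

/-- The value `ψ(|N z| / N J)` attached to a lattice point. -/
def twistAt (J : (Ideal (𝓞 K))⁰) (x : mixedSpace K) : ℂ :=
  ψ ((⌊mixedEmbedding.norm x⌋₊ / Ideal.absNorm (J : Ideal (𝓞 K)) : ℕ) : ZMod m)

/-- `∑_{a ∈ J/mJ} ψ(N a / N J)` over `m ^ d`. -/
def meanVal (J : (Ideal (𝓞 K))⁰) : ℂ :=
  (∑ q : Free.ChooseBasisIndex ℤ (𝓞 K) → ZMod m,
    ψ (relNorm (J : Ideal (𝓞 K)) (rep m J q) : ZMod m)) / (m : ℂ) ^ finrank ℚ K

/-- The sign attached to `ψ`. -/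
def parity : ℝ := (ψ (-1)).re

omit [NeZero m] in
theorem parity_spec : ((parity m ψ : ℝ) : ℂ) = ψ (-1) ∧ |parity m ψ| ≤ 1 := by
  rcases ψ.even_or_odd with h | h
  · rw [parity, h]; simp
  · rw [parity, h]; simp

omit [NeZero m] in
theorem twistAt_eq (J : (Ideal (𝓞 K))⁰) {z : 𝓞 K} (hz : z ∈ (J : Ideal (𝓞 K))) :
    twistAt m ψ J (mixedEmbedding K (z : K)) =
      ((if nrm K (mixedEmbedding K (z : K)) < 0 then parity m ψ else 1 : ℝ) : ℂ) *
        ψ (relNorm (J : Ideal (𝓞 K)) z : ZMod m) := by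
  have hN : (Ideal.absNorm (J : Ideal (𝓞 K)) : ℤ) ∣ Algebra.norm ℤ z := absNorm_dvd_norm hz
  have hfl : ⌊mixedEmbedding.norm (mixedEmbedding K (z : K))⌋₊ = (Algebra.norm ℤ z).natAbs := by
    rw [norm_eq_norm, ← Algebra.coe_norm_int, ← Int.cast_abs, Rat.cast_intCast, Int.abs_eq_natAbs,
      Int.cast_natCast, Nat.floor_natCast]
  have hrel : (Algebra.norm ℤ z).natAbs / Ideal.absNorm (J : Ideal (𝓞 K)) =
      (relNorm (J : Ideal (𝓞 K)) z).natAbs := by
    rw [relNorm, Int.natAbs_ediv_of_dvd hN, Int.natAbs_natCast]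
  have hnonneg : (0 : ℤ) ≤ (Ideal.absNorm (J : Ideal (𝓞 K)) : ℤ) := Int.natCast_nonneg _
  rw [twistAt, hfl, hrel, nrm_mixedEmbedding]
  by_cases hneg : Algebra.norm ℤ z < 0
  · rw [if_pos (by exact_mod_cast hneg), (parity_spec m ψ).1, ← map_mul]
    have hk : relNorm (J : Ideal (𝓞 K)) z ≤ 0 := by
      obtain ⟨k, hk⟩ := hN
      rw [relNorm, hk, Int.mul_ediv_cancel_left _ (by
        intro h; rw [hk, h, zero_mul] at hneg; exact lt_irrefl _ hneg)]
      by_contra hc
      rw [hk] at hneg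
      nlinarith
    congr 1
    rw [← Int.cast_natCast, Int.ofNat_natAbs_of_nonpos hk]
    push_cast
    ring
  · rw [if_neg (by exact_mod_cast hneg), Complex.ofReal_one, one_mul, ← Int.cast_natCast,
      Int.natAbs_of_nonneg (show 0 ≤ relNorm (J : Ideal (𝓞 K)) z from
        Int.ediv_nonneg (not_lt.mp hneg) hnonneg)]

omit [NeZero m] in
private theorem summable_twistAt (J : (Ideal (𝓞 K))⁰) {s : ℝ} (hs : s ∈ Set.Ioc (1 : ℝ) 2) :
    Summable fun z : lat J ↦ twistAt m ψ J z * ((term K s z : ℝ) : ℂ) := by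
  refine Summable.of_norm_bounded (summable_term J hs) fun z ↦ ?_
  rw [norm_mul, Complex.norm_real, Real.norm_of_nonneg (term_nonneg s _)]
  exact mul_le_of_le_one_left (term_nonneg s _) (DirichletCharacter.norm_le_one ψ _)

omit [NeZero m] in
/-- At the point `rep q + m v` of `J` the twist depends only on `q` and on the sign of the norm. -/
private theorem twistAt_mul_term_split (J : (Ideal (𝓞 K))⁰)
    (q : Free.ChooseBasisIndex ℤ (𝓞 K) → ZMod m) (v : (J : Ideal (𝓞 K))) (s : ℝ) :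
    let x : mixedSpace K :=
      mixedEmbedding K ((rep m J q : 𝓞 K) : K) + mixedEmbedding K (((m : 𝓞 K) * v : 𝓞 K) : K)
    twistAt m ψ J x * ((term K s x : ℝ) : ℂ) =
      ψ (relNorm (J : Ideal (𝓞 K)) (rep m J q) : ZMod m) *
        (((if nrm K x < 0 then parity m ψ else 1) * term K s x : ℝ) : ℂ) := by
  intro x
  have hx : x = mixedEmbedding K (((rep m J q : 𝓞 K) + (m : 𝓞 K) * v : 𝓞 K) : K) := by
    simp [x, map_add]
  by_cases h0 : (rep m J q : 𝓞 K) + (m : 𝓞 K) * v = 0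
  · rw [show x = 0 by rw [hx, h0]; simp, term_zero]; simp
  · rw [hx, twistAt_eq m ψ J (add_mem (rep m J q).2 ((J : Ideal (𝓞 K)).mul_mem_left _ v.2)),
      relNorm_congr (nonZeroDivisors.coe_ne_zero J) m (rep m J q).2 v.2]
    push_cast
    ring

/-! ### Twisted sums over one lattice -/

/-- Scaled by the covolume, the twisted sum over the lattice of an ideal `J` differs from the mean
value of `ψ (N a / N J)` times the signed integral by a function with a limit at `1⁺`. -/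
theorem exists_tendsto_twist (J : (Ideal (𝓞 K))⁰) :
    ∃ c₀ : ℝ, c₀ = (2⁻¹) ^ nrComplexPlaces K * √|discr K| ∧
    (∀ s ∈ Set.Ioc (1 : ℝ) 2,
      Summable fun z : lat J ↦ twistAt m ψ J z * ((term K s z : ℝ) : ℂ)) ∧
    ∃ c : ℂ, Tendsto (fun s ↦ ((c₀ * Ideal.absNorm (J : Ideal (𝓞 K)) : ℝ) : ℂ) *
        (∑' z : lat J, twistAt m ψ J z * ((term K s z : ℝ) : ℂ)) -
        meanVal m ψ J * ((sInt K (parity m ψ) s : ℝ) : ℂ)) (𝓝[>] 1) (𝓝 c) := by
  refine ⟨_, rfl, fun s hs ↦ summable_twistAt m ψ J hs, ?_⟩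
  set c₀ : ℝ := (2⁻¹) ^ nrComplexPlaces K * √|discr K|
  obtain ⟨hεC, hε⟩ := parity_spec m ψ
  have hm0 : (m : 𝓞 K) ≠ 0 := Nat.cast_ne_zero.mpr (NeZero.ne m)
  let J' : (Ideal (𝓞 K))⁰ := J * ⟨Ideal.span {(m : 𝓞 K)},
    mem_nonZeroDivisors_of_ne_zero (by simpa using hm0)⟩
  have hJ'le : (J' : Ideal (𝓞 K)) ≤ J := by
    rw [Submonoid.coe_mul]; exact Ideal.le_of_dvd (Dvd.intro _ rfl)
  have hmem' : ∀ x : 𝓞 K, x ∈ (J' : Ideal (𝓞 K)) ↔ ∃ v ∈ (J : Ideal (𝓞 K)), (m : 𝓞 K) * v = x := by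
    intro x
    rw [show (J' : Ideal (𝓞 K)) = Ideal.span {(m : 𝓞 K)} * (J : Ideal (𝓞 K)) from mul_comm _ _,
      Ideal.mem_span_singleton_mul]
  -- the equivalence with the disjoint union of cosets
  let eJ : (J : Ideal (𝓞 K)) ≃ lat J := Equiv.ofBijective
    (fun x ↦ ⟨mixedEmbedding K ((x : 𝓞 K) : K), (mem_lat J).mpr ⟨x, x.2, rfl⟩⟩)
    ⟨fun x y h ↦ Subtype.ext (RingOfIntegers.ext
        ((mixedEmbedding K).injective (congrArg Subtype.val h :))),
      fun z ↦ by obtain ⟨a, ha, hz⟩ := (mem_lat J).mp z.2; exact ⟨⟨a, ha⟩, Subtype.ext hz⟩⟩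
  let e' : (J : Ideal (𝓞 K)) ≃ lat J' := Equiv.ofBijective
    (fun v ↦ ⟨mixedEmbedding K (((m : 𝓞 K) * v : 𝓞 K) : K),
      (mem_lat J').mpr ⟨_, (hmem' _).mpr ⟨v, v.2, rfl⟩, rfl⟩⟩)
    ⟨fun x y h ↦ Subtype.ext (mul_left_cancel₀ hm0 (RingOfIntegers.ext
        ((mixedEmbedding K).injective (congrArg Subtype.val h :)))),
      fun z ↦ by
        obtain ⟨a, ha, hz⟩ := (mem_lat J').mp z.2
        obtain ⟨v, hv, rfl⟩ := (hmem' a).mp ha
        exact ⟨⟨v, hv⟩, Subtype.ext hz⟩⟩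
  -- each coset of `m J` contributes a signed lattice sum with a known pole
  let α : (Free.ChooseBasisIndex ℤ (𝓞 K) → ZMod m) → 𝓞 K := fun q ↦ (rep m J q : 𝓞 K)
  choose hsum c hc using fun q ↦ exists_tendsto_coset hε J J' hJ'le (rep m J q).2
  let T : (Free.ChooseBasisIndex ℤ (𝓞 K) → ZMod m) → ℝ → ℝ := fun q s ↦ ∑' z : lat J',
    (if nrm K (mixedEmbedding K (α q : K) + z) < 0 then parity m ψ else 1) *
      term K s (mixedEmbedding K (α q : K) + z)
  have hcov : ZLattice.covolume (lat J') volume =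
      c₀ * Ideal.absNorm (J : Ideal (𝓞 K)) * (m : ℝ) ^ finrank ℚ K := by
    rw [covolume_idealLattice, FractionalIdeal.coe_mk0, FractionalIdeal.coeIdeal_absNorm]
    simp only [J', Submonoid.coe_mul, map_mul, Ideal.absNorm_span_singleton,
      ← map_natCast (algebraMap ℤ (𝓞 K)), Algebra.norm_algebraMap, RingOfIntegers.rank]
    simp [c₀, Int.natAbs_pow]
    ring
  refine ⟨(∑ q, ψ (relNorm (J : Ideal (𝓞 K)) (α q) : ZMod m) * (c q : ℂ)) / (m : ℂ) ^ finrank ℚ K,
    ?_⟩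
  have hlim := (tendsto_finsetSum Finset.univ fun q _ ↦
    ((Complex.continuous_ofReal.tendsto _).comp (hc q)).const_mul
      (ψ (relNorm (J : Ideal (𝓞 K)) (α q) : ZMod m))).div_const ((m : ℂ) ^ finrank ℚ K)
  refine hlim.congr' ?_
  filter_upwards [Ioc_mem_nhdsGT one_lt_two] with s hs
  have hpt : ∀ p : (Free.ChooseBasisIndex ℤ (𝓞 K) → ZMod m) × (J : Ideal (𝓞 K)),
      (fun z : lat J ↦ twistAt m ψ J z * ((term K s z : ℝ) : ℂ)) (eJ (splitEquiv m J p)) =
        ψ (relNorm (J : Ideal (𝓞 K)) (α p.1) : ZMod m) *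
          (((if nrm K (mixedEmbedding K (α p.1 : K) + e' p.2) < 0 then parity m ψ else 1) *
            term K s (mixedEmbedding K (α p.1 : K) + e' p.2) : ℝ) : ℂ) := by
    intro p
    have hemb : ((eJ (splitEquiv m J p) : lat J) : mixedSpace K) =
        mixedEmbedding K (α p.1 : K) + (e' p.2 : mixedSpace K) := by
      show mixedEmbedding K (((splitEquiv m J p : (J : Ideal (𝓞 K))) : 𝓞 K) : K) = _
      simp [splitEquiv, α, e', map_add]
    show twistAt m ψ J ((eJ (splitEquiv m J p) : lat J) : mixedSpace K) * _ = _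
    rw [hemb]
    exact twistAt_mul_term_split m ψ J p.1 p.2 s
  have hsumq : ∀ q, HasSum (fun v : (J : Ideal (𝓞 K)) ↦
      ψ (relNorm (J : Ideal (𝓞 K)) (α q) : ZMod m) *
        (((if nrm K (mixedEmbedding K (α q : K) + e' v) < 0 then parity m ψ else 1) *
          term K s (mixedEmbedding K (α q : K) + e' v) : ℝ) : ℂ))
      (ψ (relNorm (J : Ideal (𝓞 K)) (α q) : ZMod m) * (T q s : ℂ)) := fun q ↦
    (Complex.hasSum_ofReal.mpr (e'.hasSum_iff.mpr (hsum q s hs).hasSum)).mul_left _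
  -- re-index the lattice sum by cosets of `m J`
  have htot : (∑' z : lat J, twistAt m ψ J z * ((term K s z : ℝ) : ℂ)) =
      ∑ q, ψ (relNorm (J : Ideal (𝓞 K)) (α q) : ZMod m) * (T q s : ℂ) := by
    have hS := summable_twistAt m ψ J hs
    rw [← ((splitEquiv m J).trans eJ).tsum_eq (fun z : lat J ↦
      twistAt m ψ J z * ((term K s z : ℝ) : ℂ))]
    have hS' := ((splitEquiv m J).trans eJ).summable_iff.mpr hS
    refine (hS'.hasSum.prod_fiberwise fun q ↦ (hsumq q).congr_fun fun v ↦ hpt (q,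
      v)).tsum_eq.symm.trans ?_
    rw [tsum_fintype]
  rw [htot, meanVal]
  simp only [Function.comp_apply, Complex.ofReal_sub, Complex.ofReal_mul, hcov, T]
  have hm : ((m : ℂ) ^ finrank ℚ K) ≠ 0 := pow_ne_zero _ (Nat.cast_ne_zero.mpr (NeZero.ne m))
  push_cast
  field_simp
  simp only [Finset.mul_sum, ← Finset.sum_sub_distrib]
  refine Finset.sum_congr rfl fun q _ ↦ ?_
  ring

/-! ### Sums over ideal classes -/

/-- The summand of the twisted zeta function. -/
def idealTerm (s : ℝ) (I : (Ideal (𝓞 K))⁰) : ℂ :=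
  ψ (Ideal.absNorm (I : Ideal (𝓞 K)) : ZMod m) *
    (((Ideal.absNorm (I : Ideal (𝓞 K)) : ℝ) ^ (-s) : ℝ) : ℂ)

omit [NeZero m] in
/-- The twisted zeta series converges for `1 < s ≤ 2`. -/
theorem summable_idealTerm {s : ℝ} (hs : s ∈ Set.Ioc (1 : ℝ) 2) :
    Summable (idealTerm (K := K) m ψ s) := by
  refine Summable.of_norm_bounded (hasSum_idealZeta K hs).summable fun I ↦ ?_
  rw [idealTerm, norm_mul, Complex.norm_real,
    Real.norm_of_nonneg (Real.rpow_nonneg (Nat.cast_nonneg _) _)]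
  exact mul_le_of_le_one_left (Real.rpow_nonneg (Nat.cast_nonneg _) _)
    (DirichletCharacter.norm_le_one ψ _)

/-- Multiplication by `J` identifies the ideals of the class inverse to that of `J` with the
principal multiples of `J`. -/
private def classEquivPrincipal (J : (Ideal (𝓞 K))⁰) {C : ClassGroup (𝓞 K)}
    (hJ : ClassGroup.mk0 J = C⁻¹) :
    {I : (Ideal (𝓞 K))⁰ // ClassGroup.mk0 I = C} ≃
      {I : (Ideal (𝓞 K))⁰ // (J : Ideal (𝓞 K)) ∣ I ∧ Submodule.IsPrincipal (I : Ideal (𝓞 K))} :=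
  Equiv.ofBijective (fun I ↦ ⟨J * I.1, ⟨I.1.1, by simp⟩, by
      rw [← ClassGroup.mk0_eq_one_iff (SetLike.coe_mem _), map_mul, hJ, I.2, inv_mul_cancel]⟩)
    ⟨fun a b h ↦ Subtype.ext (Subtype.ext (mul_left_cancel₀ (nonZeroDivisors.coe_ne_zero J)
        (by simpa only [Submonoid.coe_mul] using congrArg (fun x ↦ (x.1 : Ideal (𝓞 K))) h))),
    fun ⟨⟨I, hI⟩, ⟨I', hI'⟩, hp⟩ ↦ by
      have h' : I' ∈ (Ideal (𝓞 K))⁰ := mem_nonZeroDivisors_of_ne_zero fun h ↦
        nonZeroDivisors.ne_zero hI (by rw [show I = J.1 * I' from hI', h, mul_zero])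
      have heq : J * ⟨I', h'⟩ = (⟨I, hI⟩ : (Ideal (𝓞 K))⁰) := Subtype.ext hI'.symm
      refine ⟨⟨⟨I', h'⟩, ?_⟩, Subtype.ext heq⟩
      have h1 := (ClassGroup.mk0_eq_one_iff hI).mpr hp
      rw [← heq, map_mul, hJ, inv_mul_eq_one] at h1
      exact h1.symm⟩

/-- The twisted zeta sum over the ideals of a class is a twisted lattice sum over an ideal of the
inverse class. -/
theorem hasSum_class (J : (Ideal (𝓞 K))⁰) {C : ClassGroup (𝓞 K)} (hJ : ClassGroup.mk0 J = C⁻¹)
    {s : ℝ} (hs : s ∈ Set.Ioc (1 : ℝ) 2) :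
    HasSum (fun I : {I : (Ideal (𝓞 K))⁰ // ClassGroup.mk0 I = C} ↦ idealTerm m ψ s I.1)
      (((Ideal.absNorm (J : Ideal (𝓞 K)) : ℝ) ^ s : ℝ) *
        ((∑' z : lat J, twistAt m ψ J z * ((term K s z : ℝ) : ℂ)) / Units.torsionOrder K)) := by
  obtain ⟨-, -, hsum, -⟩ := exists_tendsto_twist m ψ J
  set g : idealSet K J → ℂ := fun a ↦
    twistAt m ψ J (a : mixedSpace K) * ((mixedEmbedding.norm (a : mixedSpace K) ^ (-s) : ℝ) : ℂ)
  -- group the lattice points by orbits of units of infinite order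
  have h1 : HasSum g (∑' z : lat J, twistAt m ψ J z * ((term K s z : ℝ) : ℂ)) := by
    have h := ((toLat_injective J).hasSum_iff (fun z hz ↦ ?_)).mpr (hsum s hs).hasSum
    · refine h.prod_fiberwise fun a ↦ ?_
      have ha : mixedEmbedding.norm (a : mixedSpace K) ≠ 0 := (norm_pos_of_mem a.2.1).ne'
      have := ((hasSum_weight_unitSMul ha).mul_right
        (mixedEmbedding.norm (a : mixedSpace K) ^ (-s)))
      rw [one_mul] at this
      refine ((Complex.hasSum_ofReal.mpr this).mul_left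
        (twistAt m ψ J (a : mixedSpace K))).congr_fun fun e ↦ ?_
      show twistAt m ψ J (unitOfExp K e • (a : mixedSpace K)) *
        ((term K s (unitOfExp K e • (a : mixedSpace K)) : ℝ) : ℂ) = _
      rw [twistAt, twistAt, term, norm_unit_smul]
    · by_cases h0 : (z : mixedSpace K) = 0
      · show twistAt m ψ J (z : mixedSpace K) * ((term K s (z : mixedSpace K) : ℝ) : ℂ) = 0
        rw [h0, term_zero, Complex.ofReal_zero, mul_zero]
      · exact absurd (exists_toLat_eq J h0) hz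
  -- then by the principal ideals they generate, each met once per root of unity
  let f : {I : (Ideal (𝓞 K))⁰ // (J : Ideal (𝓞 K)) ∣ I ∧ Submodule.IsPrincipal (I : Ideal (𝓞 K))} →
      ℂ := fun I ↦ ψ ((Ideal.absNorm (I.1 : Ideal (𝓞 K)) / Ideal.absNorm (J : Ideal (𝓞 K)) : ℕ) :
        ZMod m) * (((Ideal.absNorm (I.1 : Ideal (𝓞 K)) : ℝ) ^ (-s) : ℝ) : ℂ)
  have h2 : HasSum (fun p : _ × Units.torsion K ↦ f p.1)
      (∑' z : lat J, twistAt m ψ J z * ((term K s z : ℝ) : ℂ)) := by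
    rw [← (idealSetEquivPrincipal J).hasSum_iff]
    refine h1.congr_fun fun a ↦ ?_
    simp only [g, f, Function.comp_apply, twistAt, ← absNorm_idealSetEquivPrincipal,
      Nat.floor_natCast]
  have : Fintype (Units.torsion K) := Fintype.ofFinite _
  have h3 : HasSum (fun I ↦ (Units.torsionOrder K : ℂ) * f I)
      (∑' z : lat J, twistAt m ψ J z * ((term K s z : ℝ) : ℂ)) := by
    refine h2.prod_fiberwise fun I ↦ ?_
    have h := hasSum_fintype (fun _ : Units.torsion K ↦ f I)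
    rw [Finset.sum_const, Finset.card_univ, ← Nat.card_eq_fintype_card, nsmul_eq_mul] at h
    exact h
  have h0 : (Units.torsionOrder K : ℂ) ≠ 0 := Nat.cast_ne_zero.mpr (Units.torsionOrder_ne_zero K)
  have h4 : HasSum f ((∑' z : lat J, twistAt m ψ J z * ((term K s z : ℝ) : ℂ)) /
      Units.torsionOrder K) := by
    refine (h3.div_const (Units.torsionOrder K : ℂ)).congr_fun fun I ↦ ?_
    rw [mul_div_cancel_left₀ _ h0]
  have hNpos : 0 < Ideal.absNorm (J : Ideal (𝓞 K)) := Ideal.absNorm_pos_of_nonZeroDivisors J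
  let e := classEquivPrincipal J hJ
  refine ((e.hasSum_iff.mpr h4).mul_left _).congr_fun fun I ↦ ?_
  show idealTerm m ψ s I.1 = _ * f (e I)
  have hNJ : (0 : ℝ) < Ideal.absNorm (J : Ideal (𝓞 K)) := Nat.cast_pos.mpr hNpos
  have he : Ideal.absNorm ((e I).1 : Ideal (𝓞 K)) =
      Ideal.absNorm (J : Ideal (𝓞 K)) * Ideal.absNorm (I.1 : Ideal (𝓞 K)) := by
    show Ideal.absNorm ((J * I.1 : (Ideal (𝓞 K))⁰) : Ideal (𝓞 K)) = _
    rw [Submonoid.coe_mul, map_mul]
  simp only [f, he, Nat.mul_div_cancel_left _ hNpos, idealTerm, Nat.cast_mul,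
    Real.mul_rpow hNJ.le (Nat.cast_nonneg _), Complex.ofReal_mul]
  have hcancel : (((Ideal.absNorm (J : Ideal (𝓞 K)) : ℝ) ^ s : ℝ) : ℂ) *
      (((Ideal.absNorm (J : Ideal (𝓞 K)) : ℝ) ^ (-s) : ℝ) : ℂ) = 1 := by
    rw [← Complex.ofReal_mul, ← Real.rpow_add hNJ, add_neg_cancel, Real.rpow_zero,
      Complex.ofReal_one]
  linear_combination (-(ψ (Ideal.absNorm (I.1 : Ideal (𝓞 K)) : ZMod m) *
    (((Ideal.absNorm (I.1 : Ideal (𝓞 K)) : ℝ) ^ (-s) : ℝ) : ℂ))) * hcancel

/-! ### Cancellation of the pole -/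

/-- The coefficient of the pole, for a system of class representatives. -/
def poleCoeff (R : ClassGroup (𝓞 K) → (Ideal (𝓞 K))⁰) (s : ℝ) : ℂ :=
  ∑ C, (((Ideal.absNorm (R C : Ideal (𝓞 K)) : ℝ) ^ (s - 1) : ℝ) : ℂ) * meanVal m ψ (R C)

/-- The scaled twisted zeta function minus `poleCoeff` times the signed integral has a limit at
`1⁺`. -/
theorem exists_tendsto_sub_pole (R : ClassGroup (𝓞 K) → (Ideal (𝓞 K))⁰)
    (hR : Function.Bijective fun C ↦ ClassGroup.mk0 (R C)) :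
    ∃ c : ℂ, Tendsto (fun s ↦
      ((((2⁻¹) ^ nrComplexPlaces K * √|discr K|) * Units.torsionOrder K : ℝ) : ℂ) *
        (∑' I, idealTerm (K := K) m ψ s I) - poleCoeff m ψ R s * (sInt K (parity m ψ) s : ℝ))
      (𝓝[>] 1) (𝓝 c) := by
  set c₀ : ℝ := (2⁻¹) ^ nrComplexPlaces K * √|discr K|
  choose c hc using fun C ↦ (exists_tendsto_twist m ψ (R C)).choose_spec.2.2
  have hc₀ : ∀ C, (exists_tendsto_twist m ψ (R C)).choose = c₀ := fun C ↦
    (exists_tendsto_twist m ψ (R C)).choose_spec.1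
  simp only [hc₀] at hc
  let a : ClassGroup (𝓞 K) → ℝ := fun C ↦ Ideal.absNorm (R C : Ideal (𝓞 K))
  have ha : ∀ C, a C ≠ 0 := fun C ↦
    Nat.cast_ne_zero.mpr (Ideal.absNorm_pos_of_nonZeroDivisors (R C)).ne'
  refine ⟨∑ C, ((a C ^ ((1 : ℝ) - 1) : ℝ) : ℂ) * c C, ?_⟩
  have hlim := tendsto_finsetSum (Finset.univ : Finset (ClassGroup (𝓞 K))) fun C _ ↦
    Tendsto.mul ((Complex.continuous_ofReal.tendsto _).comp
      (((Real.continuousAt_const_rpow (ha C)).comp (f := fun s : ℝ ↦ s - 1) (x := (1 : ℝ))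
        (continuousAt_id.sub continuousAt_const)).tendsto.mono_left nhdsWithin_le_nhds)) (hc C)
  refine hlim.congr' ?_
  filter_upwards [Ioc_mem_nhdsGT one_lt_two] with s hs
  let σ : ClassGroup (𝓞 K) ≃ ClassGroup (𝓞 K) := (Equiv.ofBijective _ hR).trans (Equiv.inv _)
  have hσ : ∀ C, ClassGroup.mk0 (R C) = (σ C)⁻¹ := fun C ↦ by simp [σ]
  have htot : (∑' I, idealTerm (K := K) m ψ s I) = ∑ C, ((a C ^ s : ℝ) : ℂ) *
      ((∑' z : lat (R C), twistAt m ψ (R C) z * ((term K s z : ℝ) : ℂ))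
          / Units.torsionOrder K) := by
    have h1 := (Equiv.sigmaFiberEquiv (ClassGroup.mk0 : (Ideal (𝓞 K))⁰ → _)).hasSum_iff.mpr
      (summable_idealTerm m ψ hs).hasSum
    have h2 := h1.sigma fun C' ↦ hasSum_class m ψ (R (σ.symm C')) (C := C')
      (by rw [hσ, σ.apply_symm_apply]) hs
    rw [← h2.tsum_eq, tsum_fintype]
    exact Equiv.sum_comp σ.symm (fun C ↦ ((a C ^ s : ℝ) : ℂ) *
      ((∑' z : lat (R C), twistAt m ψ (R C) z * ((term K s z : ℝ) : ℂ)) / Units.torsionOrder K))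
  rw [htot, poleCoeff, Finset.mul_sum, Finset.sum_mul, ← Finset.sum_sub_distrib]
  refine Finset.sum_congr rfl fun C _ ↦ ?_
  have hs' : a C ^ s = a C ^ (s - 1) * a C := by
    rw [← Real.rpow_add_one (ha C), sub_add_cancel]
  have hw : (Units.torsionOrder K : ℂ) ≠ 0 := Nat.cast_ne_zero.mpr (Units.torsionOrder_ne_zero K)
  simp only [Function.comp_apply, hs', a]
  push_cast
  field_simp

/-- Multiplying the ideal by `P` prime to `m` multiplies the mean value by `ψ(NP)⁻¹`; hence the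
pole vanishes when `ψ(NP) ≠ 1`. -/
theorem meanVal_mul {P : (Ideal (𝓞 K))⁰} (hP : (Ideal.absNorm (P : Ideal (𝓞 K))).Coprime m)
    (J : (Ideal (𝓞 K))⁰) :
    ψ (Ideal.absNorm (P : Ideal (𝓞 K)) : ZMod m) * meanVal m ψ (J * P) = meanVal m ψ J := by
  have hle : ((J * P : (Ideal (𝓞 K))⁰) : Ideal (𝓞 K)) ≤ J := by
    rw [Submonoid.coe_mul]; exact Ideal.le_of_dvd (Dvd.intro _ rfl)
  let incl : ((J * P : (Ideal (𝓞 K))⁰) : Ideal (𝓞 K)) → (J : Ideal (𝓞 K)) := fun x ↦ ⟨x, hle x.2⟩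
  let φ : (Free.ChooseBasisIndex ℤ (𝓞 K) → ZMod m) → (Free.ChooseBasisIndex ℤ (𝓞 K) → ZMod m) :=
    fun q ↦ coord m J (incl (rep m (J * P) q))
  -- `NP` kills nothing modulo `m`
  obtain ⟨x, y, hxy⟩ : ∃ x y : ℤ, x * Ideal.absNorm (P : Ideal (𝓞 K)) + y * m = 1 :=
    Int.isCoprime_iff_gcd_eq_one.mpr (by simpa using hP)
  have hsurj : Function.Surjective φ := by
    intro q
    let z : ((J * P : (Ideal (𝓞 K))⁰) : Ideal (𝓞 K)) :=
      ⟨(rep m J q : 𝓞 K) * ((x : 𝓞 K) * (Ideal.absNorm (P : Ideal (𝓞 K)) : 𝓞 K)),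
        Ideal.mul_mem_mul (rep m J q).2 ((P : Ideal (𝓞 K)).mul_mem_left _ (Ideal.absNorm_mem _))⟩
    refine ⟨coord m (J * P) z, ?_⟩
    obtain ⟨v, hv⟩ := exists_eq_rep_add m (J * P) z
    have h1 : incl (rep m (J * P) (coord m (J * P) z)) =
        rep m J q + (m : ℤ) • (-(incl v) - y • rep m J q) := by
      apply Subtype.ext
      have hv' := congrArg (fun t : ((J * P : (Ideal (𝓞 K))⁰) : Ideal (𝓞 K)) ↦ (t : 𝓞 K)) hv
      have hxy' : (x : 𝓞 K) * (Ideal.absNorm (P : Ideal (𝓞 K)) : 𝓞 K)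
          + (y : 𝓞 K) * (m : 𝓞 K) = 1 := by
        exact_mod_cast congrArg (Int.cast : ℤ → 𝓞 K) hxy
      simp only [incl, z, Submodule.coe_add, Submodule.coe_sub, Submodule.coe_neg,
        Submodule.coe_smul_of_tower, zsmul_eq_mul, Int.cast_natCast] at hv' ⊢
      linear_combination (-1 : 𝓞 K) * hv' + ((rep m J q : 𝓞 K)) * hxy'
    funext i
    show ((idealZBasis J).equivFun (incl _) i : ZMod m) = q i
    rw [h1, map_add, map_zsmul, rep, LinearEquiv.apply_symm_apply]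
    simp
  have hbij : Function.Bijective φ := Finite.injective_iff_bijective.mp
    (Finite.injective_iff_surjective.mpr hsurj)
  rw [meanVal, meanVal, ← mul_div_assoc, Finset.mul_sum]
  congr 1
  refine Fintype.sum_bijective φ hbij _ _ fun q ↦ ?_
  set w := rep m (J * P) q
  obtain ⟨v, hv⟩ := exists_eq_rep_add m J (incl w)
  have hv' : (w : 𝓞 K) = (rep m J (φ q) : 𝓞 K) + (m : 𝓞 K) * (v : 𝓞 K) := by
    have := congrArg (fun t : (J : Ideal (𝓞 K)) ↦ (t : 𝓞 K)) hv
    simpa [incl, φ] using this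
  have hrel : relNorm (J : Ideal (𝓞 K)) (w : 𝓞 K) =
      (Ideal.absNorm (P : Ideal (𝓞 K)) : ℤ) *
        relNorm ((J * P : (Ideal (𝓞 K))⁰) : Ideal (𝓞 K)) (w : 𝓞 K) := by
    obtain ⟨k, hk⟩ := absNorm_dvd_norm w.2
    have hJ0 : (Ideal.absNorm (J : Ideal (𝓞 K)) : ℤ) ≠ 0 :=
      Int.natCast_ne_zero.mpr (Ideal.absNorm_pos_of_nonZeroDivisors J).ne'
    have hP0 : (Ideal.absNorm (P : Ideal (𝓞 K)) : ℤ) ≠ 0 :=
      Int.natCast_ne_zero.mpr (Ideal.absNorm_pos_of_nonZeroDivisors P).ne'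
    rw [relNorm, relNorm, hk, Int.mul_ediv_cancel_left _ (by
      rw [Submonoid.coe_mul, map_mul, Nat.cast_mul]; exact mul_ne_zero hJ0 hP0),
      Submonoid.coe_mul, map_mul, Nat.cast_mul, mul_assoc, Int.mul_ediv_cancel_left _ hJ0]
  rw [← map_mul, ← relNorm_congr (nonZeroDivisors.coe_ne_zero J) m (rep m J (φ q)).2 v.2, ← hv',
    hrel]
  push_cast
  rfl

/-- **The twisted zeta function has a limit at `1⁺`** when some ideal prime to `m` has
`ψ(NP) ≠ 1`. -/
theorem exists_tendsto_idealTerm {P : (Ideal (𝓞 K))⁰}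
    (hP : (Ideal.absNorm (P : Ideal (𝓞 K))).Coprime m)
    (hψ : ψ (Ideal.absNorm (P : Ideal (𝓞 K)) : ZMod m) ≠ 1) :
    ∃ c : ℂ, Tendsto (fun s ↦ ∑' I, idealTerm (K := K) m ψ s I) (𝓝[>] 1) (𝓝 c) := by
  set u := ψ (Ideal.absNorm (P : Ideal (𝓞 K)) : ZMod m)
  let R : ClassGroup (𝓞 K) → (Ideal (𝓞 K))⁰ := fun C ↦ (ClassGroup.mk0_surjective C).choose
  have hR : ∀ C, ClassGroup.mk0 (R C) = C := fun C ↦ (ClassGroup.mk0_surjective C).choose_spec
  -- Both `C ↦ R C` and `C ↦ R C * P` represent all classes, giving two asymptotics.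
  have hR1 : Function.Bijective fun C ↦ ClassGroup.mk0 (R C) := by
    simp only [hR]; exact Function.bijective_id
  have hR2 : Function.Bijective fun C ↦ ClassGroup.mk0 (R C * P) := by
    simp only [map_mul, hR]; exact Group.mulRight_bijective _
  obtain ⟨c₁, h₁⟩ := exists_tendsto_sub_pole m ψ R hR1
  obtain ⟨c₂, h₂⟩ := exists_tendsto_sub_pole m ψ (fun C ↦ R C * P) hR2
  set n : ℝ := ((Ideal.absNorm (P : Ideal (𝓞 K)) : ℕ) : ℝ)
  have hn : n ≠ 0 := Nat.cast_ne_zero.mpr (Ideal.absNorm_pos_of_nonZeroDivisors P).ne'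
  -- Their pole coefficients differ by the factor `n ^ (s - 1) / u`, which tends to `1 / u ≠ 1`.
  have hrel : ∀ s : ℝ, u * poleCoeff m ψ (fun C ↦ R C * P) s =
      ((n ^ (s - 1) : ℝ) : ℂ) * poleCoeff m ψ R s := by
    intro s
    rw [poleCoeff, poleCoeff, Finset.mul_sum, Finset.mul_sum]
    refine Finset.sum_congr rfl fun C _ ↦ ?_
    rw [← meanVal_mul m ψ hP (R C)]
    simp only [Submonoid.coe_mul, map_mul, Nat.cast_mul,
      Real.mul_rpow (Nat.cast_nonneg _) (Nat.cast_nonneg _), Complex.ofReal_mul, u, n]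
    ring
  have hn1 : Tendsto (fun s : ℝ ↦ ((n ^ (s - 1) : ℝ) : ℂ)) (𝓝[>] 1) (𝓝 1) := by
    have h : Tendsto (fun s : ℝ ↦ ((n ^ (s - 1) : ℝ) : ℂ)) (𝓝[>] 1)
        (𝓝 ((n ^ ((1 : ℝ) - 1) : ℝ) : ℂ)) :=
      (Complex.continuous_ofReal.tendsto _).comp
        (((Real.continuousAt_const_rpow hn).comp (f := fun s : ℝ ↦ s - 1) (x := (1 : ℝ))
          (continuousAt_id.sub continuousAt_const)).tendsto.mono_left nhdsWithin_le_nhds)
    simpa using h
  set κ : ℂ := ((((2⁻¹) ^ nrComplexPlaces K * √|discr K|) * Units.torsionOrder K : ℝ) : ℂ)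
  have hκ : κ ≠ 0 := by
    have h1 : (0 : ℝ) < √|discr K| :=
      Real.sqrt_pos_of_pos (abs_pos.mpr (Int.cast_ne_zero.mpr (discr_ne_zero K)))
    have h2 : (0 : ℝ) < Units.torsionOrder K := Nat.cast_pos.mpr (Units.torsionOrder_pos K)
    exact Complex.ofReal_ne_zero.mpr (by positivity)
  have hden : Tendsto (fun s : ℝ ↦ ((n ^ (s - 1) : ℝ) : ℂ) - u) (𝓝[>] 1) (𝓝 (1 - u)) :=
    hn1.sub_const u
  have hne : (1 : ℂ) - u ≠ 0 := sub_ne_zero.mpr (Ne.symm hψ)
  have hev : ∀ᶠ s : ℝ in 𝓝[>] 1, ((n ^ (s - 1) : ℝ) : ℂ) - u ≠ 0 :=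
    hden.eventually_ne hne
  -- So the two relations determine the limit.
  refine ⟨(c₁ + (u * (c₁ - c₂)) / (1 - u)) / κ,
    ((h₁.add (((h₁.sub h₂).const_mul u).div hden hne)).div_const κ).congr' ?_⟩
  filter_upwards [hev] with s hs
  simp only [Pi.div_apply]
  field_simp
  linear_combination (sInt K (parity m ψ) s : ℂ) * hrel s

end Fermat.Agent.Arith.Chebotarev
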